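import Mathlib
import Fermat.Agent.MUL.S27.Zeta.Defs
import Fermat.Agent.MUL.Orig.Lib.RR.Basic
import Fermat.Agent.MUL.Lib.RR.Hurwitz.Val
import Fermat.Agent.MUL.Lib.RedTr.FundIdK

section MergeWrap_S27_Zeta_Fin -- from S27/Zeta/Fin.lean

set_option autoImplicit false
set_option linter.style.haveILetI false

/-!
# S27, part D, seat Z2 (FIN): finiteness and orbits  (PROVED, helper2)

`x` transcendental with `[F : k(x)] < ∞` (`hRR.exists_x`); `σ^m x = x` for some `m > 0`.
* a place `P` fixed by `σ^j` (wlog `m ∣ j`) is a pole of `x` or a zero of `x - c` with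
  `c ^ (q ^ j) = c` (`σ^j (x - c) = x - c ^ (q^j)`, `ord_{σ P} (σ f) = ord_P f`): finitely many;
* every place has a finite orbit: a power of `σ` fixes a uniformizer `t` at `P`, hence permutes
  the finite set of zeros and poles of `t`;
* an invariant effective divisor of degree `d` is supported on places fixed by `σ ^ (d !)`;
* a class is represented by a divisor, which is fixed by a power of `σ`.

The first two statements are stated for an arbitrary semilinear automorphism with the properties
of `S.σ` (they are used by seat Z1 to find a power of `σ` fixing a given place).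
-/

noncomputable section

open AlgebraicCurve

namespace Fermat.Agent.S27

open Fermat.Agent.RR

variable {k F : Type*} [Field k] [Field F] [Algebra k F]


/-- a point of a finite set stable under a group element is fixed by a positive power of it -/
theorem fin_exists_pow_smul_eq {G X : Type*} [Group G] [MulAction G X] (τ : G) (T : Set X)
    (hT : T.Finite) (hstab : ∀ v ∈ T, τ • v ∈ T) {P : X} (hP : P ∈ T) :
    ∃ n : ℕ, 0 < n ∧ (τ ^ n) • P = P := by
  have hmem : ∀ n : ℕ, (τ ^ n) • P ∈ T := by
    intro n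
    induction n with
    | zero => simpa using hP
    | succ n ih =>
      rw [pow_succ', mul_smul]
      exact hstab _ ih
  haveI : Finite T := hT
  obtain ⟨a, b, hab, heq⟩ := Finite.exists_ne_map_eq_of_infinite
    (fun n : ℕ => (⟨(τ ^ n) • P, hmem n⟩ : T))
  have heq' : (τ ^ a) • P = (τ ^ b) • P := congrArg Subtype.val heq
  rcases Nat.lt_or_gt_of_ne hab with h | h
  · refine ⟨b - a, Nat.sub_pos_of_lt h, ?_⟩
    have h1 : τ ^ b = τ ^ a * τ ^ (b - a) := by rw [← pow_add, Nat.add_sub_cancel' h.le]
    rw [h1, mul_smul] at heq'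
    exact (MulAction.injective (τ ^ a) heq').symm
  · refine ⟨a - b, Nat.sub_pos_of_lt h, ?_⟩
    have h1 : τ ^ a = τ ^ b * τ ^ (a - b) := by rw [← pow_add, Nat.add_sub_cancel' h.le]
    rw [h1, mul_smul] at heq'
    exact MulAction.injective (τ ^ b) heq'

/-- every place has a finite orbit (version without `FrobStr`, for seat Z1) -/
theorem exists_mem_fixPl_aux (hRR : IsRRField k F) (σ : SemilinearAut k F)
    (horb : ∀ x : F, ∃ m : ℕ, 0 < m ∧ (σ ^ m) • x = x) (P : Place k F) :
    ∃ j : ℕ, 0 < j ∧ (σ ^ j) • P = P := by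
  obtain ⟨t, ht⟩ := exists_uniformizer P
  obtain ⟨M, hM, hfix⟩ := horb t
  have hstab : ∀ v ∈ {v : Place k F | v.ord t ≠ 0}, (σ ^ M) • v ∈ {v : Place k F | v.ord t ≠ 0} := by
    intro v hv
    have h1 := SemilinearAut.ord_smul (σ ^ M) v t
    rw [hfix] at h1
    show ((σ ^ M) • v).ord t ≠ 0
    rw [h1]
    exact hv
  have hfin : {v : Place k F | v.ord t ≠ 0}.Finite := by
    refine (divOf hRR t).support.finite_toSet.subset fun v hv => ?_
    rw [Finset.mem_coe, Finsupp.mem_support_iff, divOf_apply]
    exact hv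
  have hP : P ∈ {v : Place k F | v.ord t ≠ 0} := by
    show P.ord t ≠ 0
    rw [ht]
    exact one_ne_zero
  obtain ⟨n, hn, hn'⟩ := fin_exists_pow_smul_eq (σ ^ M) _ hfin hstab hP
  exact ⟨M * n, Nat.mul_pos hM hn, by rw [pow_mul]; exact hn'⟩


/-- **Seat Z2.** every place has a finite orbit -/
theorem exists_mem_fixPl (hRR : IsRRField k F) (S : FrobStr k F) (P : Place k F) :
    ∃ j : ℕ, 0 < j ∧ P ∈ S.fixPl j :=
  exists_mem_fixPl_aux hRR S.σ S.orbit P


/-- a zero of `x - c` is not a zero of `x - c'` for `c' ≠ c` -/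
theorem fin_const_eq (v : Place k F) {x : F} {c c' : k}
    (hv : 0 < v.ord (x - algebraMap k F c)) (hv' : 0 < v.ord (x - algebraMap k F c')) :
    c = c' := by
  by_contra hcc
  have h1 : x - algebraMap k F c' = algebraMap k F (c - c') + (x - algebraMap k F c) := by
    rw [map_sub]; ring
  have h2 : v.adicValuation (algebraMap k F (c - c')) = 1 :=
    Fermat.Agent.RRHur.adicValuation_algebraMap_eq_one v (sub_ne_zero.mpr hcc)
  have key : ∀ y : F, 0 < v.ord y → v.adicValuation y < 1 := by
    intro y hy
    rw [← not_le]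
    intro h
    have h4 : 1 ≤ v.adicValuation y := h
    by_cases h0 : y = 0
    · rw [h0] at hy
      simp at hy
    · rw [v.adicValuation_eq_exp_neg_ord h0, ← WithZero.exp_zero, WithZero.exp_le_exp] at h4
      omega
  have h3 := key _ hv
  have h5 : v.adicValuation (x - algebraMap k F c') = 1 := by
    rw [h1, Valuation.map_add_eq_of_lt_left _ (by rw [h2]; exact h3), h2]
  have h6 := key _ hv'
  rw [h5] at h6
  exact lt_irrefl _ h6

/-- the fixed points of `c ↦ c ^ N` (`N ≥ 2`) are finite in number -/
theorem fin_finite_fixed_pow (N : ℕ) (hN : 2 ≤ N) : {c : k | c ^ N = c}.Finite := by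
  have hne : (Polynomial.X ^ N - Polynomial.X : Polynomial k) ≠ 0 := by
    intro h
    have h1 := congrArg (fun p : Polynomial k => p.coeff 1) h
    simp only [Polynomial.coeff_sub, Polynomial.coeff_X_pow, Polynomial.coeff_X_one,
      Polynomial.coeff_zero] at h1
    rw [if_neg (by omega)] at h1
    simp at h1
  refine (Polynomial.finite_setOfPred_isRoot hne).subset fun c hc => ?_
  show Polynomial.IsRoot _ c
  rw [Polynomial.IsRoot, Polynomial.eval_sub, Polynomial.eval_pow, Polynomial.eval_X]
  exact sub_eq_zero.mpr hc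

/-- **Seat Z2.** `N_j < ∞` -/
theorem fixPl_finite (hRR : IsRRField k F) (S : FrobStr k F) (j : ℕ) (hj : 0 < j) :
    (S.fixPl j).Finite := by
  obtain ⟨x, hx, -, -⟩ := hRR.exists_x
  obtain ⟨m, hm, hxm⟩ := S.orbit x
  have hxJ : (S.σ ^ (j * m)) • x = x := by
    rw [mul_comm, pow_mul]
    have key : ∀ i : ℕ, ((S.σ ^ m) ^ i) • x = x := by
      intro i
      induction i with
      | zero => simp
      | succ i ih => rw [pow_succ, mul_smul, hxm, ih]
    exact key j
  have hN : 2 ≤ S.p ^ (S.f * (j * m)) := by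
    have h1 : 0 < S.f * (j * m) := Nat.mul_pos S.hf (Nat.mul_pos hj hm)
    calc 2 ≤ S.p := S.hp.two_le
      _ = S.p ^ 1 := (pow_one _).symm
      _ ≤ S.p ^ (S.f * (j * m)) := Nat.pow_le_pow_right S.hp.pos h1
  have hxc : ∀ c : k, x - algebraMap k F c ≠ 0 := by
    intro c h
    have h1 : x = algebraMap k F c := sub_eq_zero.mp h
    rw [h1] at hx
    exact hx (isAlgebraic_algebraMap c)
  have hfin : ({v : Place k F | v.ord x < 0} ∪
      ⋃ c ∈ {c : k | c ^ (S.p ^ (S.f * (j * m))) = c},
        {v : Place k F | 0 < v.ord (x - algebraMap k F c)}).Finite := by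
    refine (finite_poles hRR x).union ?_
    exact (fin_finite_fixed_pow _ hN).biUnion fun c _ => finite_zeros hRR _
  refine hfin.subset fun P hP => ?_
  have hPJ : (S.σ ^ (j * m)) • P = P := by
    rw [pow_mul]
    have hP' : (S.σ ^ j) • P = P := hP
    have key : ∀ i : ℕ, ((S.σ ^ j) ^ i) • P = P := by
      intro i
      induction i with
      | zero => simp
      | succ i ih => rw [pow_succ, mul_smul, hP', ih]
    exact key m
  by_cases hneg : P.ord x < 0
  · exact Or.inl hneg
  · right
    rw [not_lt] at hneg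
    obtain ⟨c, hc | hc⟩ := exists_const_sub hRR P hneg
    · exact absurd (sub_eq_zero.mpr hc) (hxc c)
    · have h1 := SemilinearAut.ord_smul (S.σ ^ (j * m)) P (x - algebraMap k F c)
      rw [hPJ, smul_sub, hxJ, SemilinearAut.smul_algebraMap, S.base_pow] at h1
      have h2 : 0 < P.ord (x - algebraMap k F (c ^ S.p ^ (S.f * (j * m)))) := by
        rw [h1]; exact hc
      have h3 := fin_const_eq P hc h2
      rw [Set.mem_iUnion₂]
      exact ⟨c, h3.symm, hc⟩



theorem fin_pow_smul_of_dvd {G X : Type*} [Group G] [MulAction G X] (τ : G) {P : X} {a b : ℕ}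
    (h : (τ ^ a) • P = P) (hab : a ∣ b) : (τ ^ b) • P = P := by
  obtain ⟨c, rfl⟩ := hab
  rw [pow_mul]
  induction c with
  | zero => simp
  | succ c ih => rw [pow_succ, mul_smul, h, ih]

/-- the coefficients of an effective divisor are bounded by its degree -/
theorem fin_coeff_le_degree (hRR : IsRRField k F) {D : Divisor k F} (hD : 0 ≤ D)
    (v : Place k F) : D v ≤ Divisor.degree D := by
  rw [degree_eq_sum hRR D]
  by_cases hv : v ∈ D.support
  · exact Finset.single_le_sum (f := fun w => D w) (fun w _ => hD w) hv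
  · rw [Finsupp.notMem_support_iff.mp hv]
    exact Finset.sum_nonneg fun w _ => hD w

/-- the support of an effective divisor has at most `deg` elements -/
theorem fin_card_support_le (hRR : IsRRField k F) {D : Divisor k F} (hD : 0 ≤ D) :
    (D.support.card : ℤ) ≤ Divisor.degree D := by
  rw [degree_eq_sum hRR D]
  calc (D.support.card : ℤ) = ∑ _v ∈ D.support, (1 : ℤ) := by simp
    _ ≤ ∑ v ∈ D.support, D v := Finset.sum_le_sum fun v hv => by
        have h1 : D v ≠ 0 := Finsupp.mem_support_iff.mp hv
        have h2 : 0 ≤ D v := hD v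
        omega

/-- the support of an invariant effective divisor of degree `d` consists of places fixed by
`σ ^ (d !)` -/
theorem fin_support_subset (hRR : IsRRField k F) (σ : SemilinearAut k F) {d : ℕ}
    {D : Divisor k F} (hD : 0 ≤ D) (hdeg : Divisor.degree D = (d : ℤ)) (hσ : σ • D = D)
    {P : Place k F} (hP : P ∈ D.support) : (σ ^ d.factorial) • P = P := by
  have hstab : ∀ v ∈ (D.support : Set (Place k F)), σ • v ∈ (D.support : Set (Place k F)) := by
    intro v hv
    rw [Finset.mem_coe, Finsupp.mem_support_iff] at hv ⊢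
    have h1 := SemilinearAut.divisor_smul_apply_smul σ D v
    rw [hσ] at h1
    rw [h1]
    exact hv
  have hmem : ∀ n : ℕ, (σ ^ n) • P ∈ D.support := by
    intro n
    induction n with
    | zero => simpa using hP
    | succ n ih =>
      rw [pow_succ', mul_smul]
      exact hstab _ ih
  have hcard : D.support.card ≤ d := by
    have := fin_card_support_le hRR hD
    rw [hdeg] at this
    exact_mod_cast this
  -- pigeonhole on `P, σ P, …, σ^d P`
  have hpig : ∃ a ∈ Finset.range (d + 1), ∃ b ∈ Finset.range (d + 1), a ≠ b ∧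
      (σ ^ a) • P = (σ ^ b) • P := by
    apply Finset.exists_ne_map_eq_of_card_lt_of_maps_to (t := D.support)
    · rw [Finset.card_range]
      omega
    · intro n _
      exact hmem n
  obtain ⟨a, ha, b, hb, hab, heq⟩ := hpig
  rw [Finset.mem_range] at ha hb
  have key : ∀ a b : ℕ, a < b → b < d + 1 → (σ ^ a) • P = (σ ^ b) • P →
      (σ ^ d.factorial) • P = P := by
    intro a b hlt hb heq
    have h1 : σ ^ b = σ ^ a * σ ^ (b - a) := by rw [← pow_add, Nat.add_sub_cancel' hlt.le]
    rw [h1, mul_smul] at heq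
    have h2 : (σ ^ (b - a)) • P = P := (MulAction.injective (σ ^ a) heq).symm
    exact fin_pow_smul_of_dvd σ h2 (Nat.dvd_factorial (Nat.sub_pos_of_lt hlt) (by omega))
  rcases Nat.lt_or_gt_of_ne hab with h | h
  · exact key a b h hb heq
  · exact key b a h ha heq.symm


/-- **Seat Z2.** `a_d < ∞` -/
theorem effInv_finite (hRR : IsRRField k F) (S : FrobStr k F) (d : ℕ) :
    (S.effInv d).Finite := by
  classical
  have hT : (S.fixPl d.factorial).Finite := fixPl_finite hRR S _ d.factorial_pos
  haveI : Finite ↥(S.fixPl d.factorial) := hT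
  rw [← Set.finite_coe_iff]
  let Φ : ↥(S.effInv d) → (↥(S.fixPl d.factorial) → Fin (d + 1)) := fun D v =>
    ⟨((D : Divisor k F) (v : Place k F)).toNat, by
      have h1 := fin_coeff_le_degree hRR D.2.1 (v : Place k F)
      rw [D.2.2.1] at h1
      have h2 : 0 ≤ (D : Divisor k F) (v : Place k F) := D.2.1 _
      omega⟩
  refine Finite.of_injective Φ ?_
  intro D D' h
  apply Subtype.ext
  ext v
  by_cases hv : v ∈ S.fixPl d.factorial
  · have h1 := congrArg (fun g => (g ⟨v, hv⟩ : ℕ)) h
    simp only [Φ] at h1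
    have h2 : 0 ≤ (D : Divisor k F) v := D.2.1 _
    have h3 : 0 ≤ (D' : Divisor k F) v := D'.2.1 _
    omega
  · have h1 : (D : Divisor k F) v = 0 := by
      by_contra hne
      exact hv (fin_support_subset hRR S.σ D.2.1 D.2.2.1 D.2.2.2
        (Finsupp.mem_support_iff.mpr hne))
    have h2 : (D' : Divisor k F) v = 0 := by
      by_contra hne
      exact hv (fin_support_subset hRR S.σ D'.2.1 D'.2.2.1 D'.2.2.2
        (Finsupp.mem_support_iff.mpr hne))
    rw [h1, h2]

/-- **Seat Z2.** `J = ⋃ J_m` -/
theorem exhaust (hRR : IsRRField k F) (S : FrobStr k F) (x : Pic0 k F) :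
    ∃ m : ℕ, 0 < m ∧ x ∈ fixedPow S.sigmaEnd m := by
  classical
  obtain ⟨D, rfl⟩ := Pic0.mk_surjective x
  choose j hj hjP using fun P : Place k F => exists_mem_fixPl_aux hRR S.σ S.orbit P
  refine ⟨∏ P ∈ (D : Divisor k F).support, j P, Finset.prod_pos fun P _ => hj P, ?_⟩
  rw [mem_fixedPow, S.sigmaEnd_pow_apply, SemilinearAut.pic0_smul_mk]
  congr 1
  apply Subtype.ext
  rw [SemilinearAut.coe_degZeroSMulHom, SemilinearAut.divisor_smul_def]
  conv_rhs => rw [← Finsupp.mapDomain_id (v := (D : Divisor k F))]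
  refine Finsupp.mapDomain_congr fun P hP => ?_
  exact fin_pow_smul_of_dvd S.σ (hjP P) (Finset.dvd_prod_of_mem _ hP)

end Fermat.Agent.S27
end
end MergeWrap_S27_Zeta_Fin
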