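import Mathlib
import Fermat.Agent.MUL.S27.Zeta.Defs
import Fermat.Agent.MUL.S27.Zeta.Fin
import Fermat.Agent.MUL.E.S15.HeckeRedMod

section MergeWrap_S27_Zeta_Lang -- from S27/Zeta/Lang.lean

/-!
# S27 / D3 : Lang's lemma (semilinear Hilbert 90 for Frobenius)

`k` algebraically closed, `V` a finite-dimensional `k`-vector space, `T : V →+ V` an injective
additive map which is `q`-semilinear (`T (c • v) = c ^ q • T v`, `1 < q`).  Then `V` has a
`k`-basis of `T`-fixed vectors, and the number of fixed vectors is `q ^ dim V`.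

Everything is elementary (no Galois cohomology):

* `exists_fixed_ne_zero` : a nonzero fixed vector in `V ≠ 0`;
* `span_fixed_eq_top`    : the fixed vectors span `V` (semilinear form, induction via `V ⧸ W`);
* `exists_basis_fixed`, `fixed_iff_coord`, `card_fixed` : consumer forms.
-/

namespace Fermat.Agent.S27.Lang

open Polynomial

section Step1

variable {k : Type*} [Field k]

/-- The auxiliary polynomials: `H 0 = a 0`, `H (i+1) = X ^ (q (q-1)) * (H i) ^ q + a (i+1)`. -/
noncomputable def hPoly (q : ℕ) (a : ℕ → k) : ℕ → k[X]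
  | 0 => C (a 0)
  | (i + 1) => X ^ (q * (q - 1)) * (hPoly q a i) ^ q + C (a (i + 1))

lemma hPoly_ne_zero {q : ℕ} (hq : 1 < q) (a : ℕ → k) (m : ℕ) (h : ∃ i, i ≤ m ∧ a i ≠ 0) :
    hPoly q a m ≠ 0 := by
  induction m with
  | zero =>
    obtain ⟨i, hi, hai⟩ := h
    have : i = 0 := by omega
    subst this
    simpa [hPoly] using hai
  | succ m ih =>
    by_cases hm : hPoly q a m = 0
    · have ha : a (m + 1) ≠ 0 := by
        obtain ⟨i, hi, hai⟩ := h
        rcases Nat.lt_or_ge i (m + 1) with h1 | h1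
        · exact absurd hm (ih ⟨i, by omega, hai⟩)
        · have : i = m + 1 := by omega
          subst this; exact hai
      have hq0 : q ≠ 0 := by omega
      simp [hPoly, hm, hq0, ha]
    · intro h0
      have h1 : X ^ (q * (q - 1)) * (hPoly q a m) ^ q = C (- a (m + 1)) := by
        have := h0
        simp only [hPoly] at this
        rw [map_neg]
        exact eq_neg_of_add_eq_zero_left this
      have h2 := congrArg natDegree h1
      rw [natDegree_X_pow_mul _ (pow_ne_zero _ hm), natDegree_C] at h2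
      have h3 : 0 < q * (q - 1) := Nat.mul_pos (by omega) (by omega)
      omega

lemma exists_root_aux [IsAlgClosed k] {q : ℕ} (hq : 1 < q) (H : k[X]) (hH : H ≠ 0) :
    ∃ t : k, t ^ (q - 1) * H.eval t = 1 := by
  have hnd : (X ^ (q - 1) * H - 1 : k[X]).natDegree = H.natDegree + (q - 1) := by
    rw [natDegree_sub_eq_left_of_natDegree_lt, natDegree_X_pow_mul _ hH]
    have h1 : (1 : k[X]).natDegree = 0 := natDegree_one
    rw [natDegree_X_pow_mul _ hH, h1]
    have h2 : 0 < q - 1 := by omega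
    exact Nat.lt_of_lt_of_le h2 (Nat.le_add_left _ _)
  have hdeg : (X ^ (q - 1) * H - 1 : k[X]).degree ≠ 0 := by
    intro h0
    have h1 := natDegree_eq_zero_iff_degree_le_zero.2 h0.le
    rw [hnd] at h1
    omega
  obtain ⟨t, ht⟩ := IsAlgClosed.exists_root _ hdeg
  refine ⟨t, ?_⟩
  simpa [IsRoot, sub_eq_zero] using ht

variable {V : Type*} [AddCommGroup V] [Module k V]

lemma iterate_indep (T : V → V) (v : V) (m : ℕ)
    (h : ∀ r < m, T^[r] v ∉ Submodule.span k (Set.range (fun i : Fin r => T^[(i : ℕ)] v))) :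
    LinearIndependent k (fun i : Fin m => T^[(i : ℕ)] v) := by
  induction m with
  | zero => exact linearIndependent_empty_type
  | succ m ih =>
    rw [linearIndependent_finSucc']
    exact ⟨ih (fun r hr => h r (by omega)), h m (Nat.lt_succ_self m)⟩

/-- **Step 1.** A nonzero fixed vector of an injective `q`-semilinear additive endomorphism of a
nonzero finite-dimensional vector space over an algebraically closed field. -/
theorem exists_fixed_ne_zero [IsAlgClosed k] [FiniteDimensional k V] [Nontrivial V]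
    (T : V →+ V) {q : ℕ} (hq : 1 < q)
    (hT : ∀ (c : k) (v : V), T (c • v) = c ^ q • T v) (hinj : Function.Injective T) :
    ∃ w : V, w ≠ 0 ∧ T w = w := by
  classical
  obtain ⟨v, hv⟩ := exists_ne (0 : V)
  have hex : ∃ r, T^[r] v ∈ Submodule.span k (Set.range (fun i : Fin r => T^[(i : ℕ)] v)) := by
    by_contra hne
    push Not at hne
    have := (iterate_indep (k := k) T v (Module.finrank k V + 1)
      (fun r _ => hne r)).fintype_card_le_finrank
    simp at this
  obtain ⟨r, hPr, hmin⟩ : ∃ r, T^[r] v ∈ Submodule.span k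
      (Set.range (fun i : Fin r => T^[(i : ℕ)] v)) ∧
      ∀ m < r, T^[m] v ∉ Submodule.span k (Set.range (fun i : Fin m => T^[(i : ℕ)] v)) :=
    ⟨Nat.find hex, Nat.find_spec hex, fun m hm => Nat.find_min hex hm⟩
  have hind := iterate_indep (k := k) T v r hmin
  have hr0 : r ≠ 0 := by
    rintro rfl
    simp at hPr
    exact hv hPr
  obtain ⟨r', hr'⟩ := Nat.exists_eq_succ_of_ne_zero hr0
  obtain ⟨a', ha'⟩ := (Submodule.mem_span_range_iff_exists_fun k).1 hPr
  let a : ℕ → k := fun i => if h : i < r then a' ⟨i, h⟩ else 0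
  have ha : ∑ i ∈ Finset.range r, a i • T^[i] v = T^[r] v := by
    rw [← ha', ← Fin.sum_univ_eq_sum_range (fun i => a i • T^[i] v) r]
    refine Finset.sum_congr rfl (fun i _ => ?_)
    simp [a]
  have hane : ∃ i, i ≤ r' ∧ a i ≠ 0 := by
    by_contra hcon
    push Not at hcon
    have h0 : T^[r] v = 0 := by
      rw [← ha]
      refine Finset.sum_eq_zero (fun i hi => ?_)
      rw [hcon i (by have := Finset.mem_range.1 hi; omega), zero_smul]
    have h1 : T^[r] (0 : V) = 0 := by
      clear * -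
      induction r with
      | zero => rfl
      | succ n ih => rw [Function.iterate_succ_apply', ih, map_zero]
    exact hv (hinj.iterate r (h0.trans h1.symm))
  obtain ⟨t, ht⟩ := exists_root_aux hq (hPoly q a r') (hPoly_ne_zero hq a r' hane)
  have ht0 : t ≠ 0 := by
    rintro rfl
    have : q - 1 ≠ 0 := by omega
    simp [this] at ht
  let c : ℕ → k := fun i => t ^ q * (hPoly q a i).eval t
  have hc0 : c 0 = t ^ q * a 0 := by simp [c, hPoly]
  have hcs : ∀ i, c (i + 1) = (c i) ^ q + t ^ q * a (i + 1) := by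
    intro i
    simp only [c, hPoly, eval_add, eval_mul, eval_pow, eval_X, eval_C]
    have h1 : t ^ q * t ^ (q * (q - 1)) = (t ^ q) ^ q := by
      rw [← pow_mul, ← pow_add]
      congr 1
      obtain ⟨s, rfl⟩ : ∃ s, q = s + 1 := ⟨q - 1, by omega⟩
      simp only [Nat.add_sub_cancel]
      ring
    rw [mul_pow, ← h1]
    ring
  have hcr : c r' = t := by
    simp only [c]
    have h1 : t ^ q = t * t ^ (q - 1) := by
      rw [← pow_succ']
      congr 1
      omega
    rw [h1, mul_assoc, ht, mul_one]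
  refine ⟨∑ i ∈ Finset.range r, c i • T^[i] v, ?_, ?_⟩
  · intro h0
    rw [← Fin.sum_univ_eq_sum_range (fun i => c i • T^[i] v) r] at h0
    have h1 := (Fintype.linearIndependent_iff.1 hind) (fun i => c i) h0 ⟨r', by omega⟩
    simp only at h1
    exact ht0 (hcr ▸ h1)
  · rw [map_sum]
    simp only [hT, ← Function.iterate_succ_apply']
    rw [hr', Finset.sum_range_succ, Finset.sum_range_succ' (fun i => c i • T^[i] v)]
    rw [← hr', ← ha, hr', Finset.sum_range_succ' (fun i => a i • T^[i] v), hcr, smul_add,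
      Finset.smul_sum]
    simp only [hcs, hc0, add_smul, Finset.sum_add_distrib, smul_smul, Function.iterate_zero, id]
    abel

end Step1

section Step2

variable {k : Type*} [Field k] [IsAlgClosed k] {V : Type*} [AddCommGroup V] [Module k V]

lemma exists_artinSchreier {q : ℕ} (hq : 1 < q) (c : k) : ∃ d : k, d ^ q - d = c := by
  have hnd : (X ^ q - X - C c : k[X]).natDegree = q := by
    rw [natDegree_sub_eq_left_of_natDegree_lt, FiniteField.X_pow_card_sub_X_natDegree_eq k hq]
    rw [FiniteField.X_pow_card_sub_X_natDegree_eq k hq, natDegree_C]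
    omega
  have hdeg : (X ^ q - X - C c : k[X]).degree ≠ 0 := by
    intro h0
    have h1 := natDegree_eq_zero_iff_degree_le_zero.2 h0.le
    rw [hnd] at h1
    omega
  obtain ⟨d, hd⟩ := IsAlgClosed.exists_root _ hdeg
  exact ⟨d, by simpa [IsRoot, sub_eq_zero] using hd⟩

/-- **Lang's lemma, semilinear form.** The fixed vectors of an injective Frobenius-semilinear
endomorphism of a finite-dimensional vector space over an algebraically closed field span it. -/
theorem span_fixed_eq_top [FiniteDimensional k V] {φ : k →+* k} {q : ℕ} (hq : 1 < q)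
    (hφ : ∀ c, φ c = c ^ q) (T : V →ₛₗ[φ] V) (hinj : Function.Injective T) :
    Submodule.span k {v : V | T v = v} = ⊤ := by
  by_contra hW
  have hA : ∀ y ∈ Submodule.span k {v : V | T v = v},
      ∃ x ∈ Submodule.span k {v : V | T v = v}, T x = y := by
    intro y hy
    refine Submodule.closure_induction
      (p := fun y _ => ∃ x ∈ Submodule.span k {v : V | T v = v}, T x = y)
      ⟨0, Submodule.zero_mem _, map_zero T⟩ ?_ ?_ hy
    · rintro y1 y2 - - ⟨x1, hx1, rfl⟩ ⟨x2, hx2, rfl⟩
      exact ⟨x1 + x2, Submodule.add_mem _ hx1 hx2, map_add T x1 x2⟩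
    · intro c f hf
      obtain ⟨d, hd⟩ := IsAlgClosed.exists_pow_nat_eq c (by omega : 0 < q)
      refine ⟨d • f, Submodule.smul_mem _ d (Submodule.subset_span hf), ?_⟩
      have hf' : T f = f := hf
      rw [T.map_smulₛₗ, hφ, hd, hf']
  have hB : ∀ y ∈ Submodule.span k {v : V | T v = v},
      ∃ x ∈ Submodule.span k {v : V | T v = v}, T x - x = y := by
    intro y hy
    refine Submodule.closure_induction
      (p := fun y _ => ∃ x ∈ Submodule.span k {v : V | T v = v}, T x - x = y)
      ⟨0, Submodule.zero_mem _, by simp⟩ ?_ ?_ hy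
    · rintro y1 y2 - - ⟨x1, hx1, rfl⟩ ⟨x2, hx2, rfl⟩
      exact ⟨x1 + x2, Submodule.add_mem _ hx1 hx2, by rw [map_add]; abel⟩
    · intro c f hf
      obtain ⟨d, hd⟩ := exists_artinSchreier hq c
      refine ⟨d • f, Submodule.smul_mem _ d (Submodule.subset_span hf), ?_⟩
      have hf' : T f = f := hf
      rw [T.map_smulₛₗ, hφ, hf', ← sub_smul, hd]
  have hle : Submodule.span k {v : V | T v = v} ≤
      (Submodule.span k {v : V | T v = v}).comap T := by
    rw [Submodule.span_le]
    intro f hf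
    have hf' : T f = f := hf
    show T f ∈ Submodule.span k {v : V | T v = v}
    rw [hf']
    exact Submodule.subset_span hf
  have hT'inj : Function.Injective
      ((Submodule.span k {v : V | T v = v}).mapQ (Submodule.span k {v : V | T v = v}) T hle) := by
    rw [injective_iff_map_eq_zero]
    intro x hx
    obtain ⟨u, rfl⟩ := Submodule.Quotient.mk_surjective _ x
    rw [Submodule.mapQ_apply, Submodule.Quotient.mk_eq_zero] at hx
    obtain ⟨x', hx', hTx'⟩ := hA _ hx
    rw [Submodule.Quotient.mk_eq_zero]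
    rwa [← hinj hTx']
  have hnt : Nontrivial (V ⧸ Submodule.span k {v : V | T v = v}) :=
    Submodule.Quotient.nontrivial_iff.2 hW
  obtain ⟨ū, hū0, hūfix⟩ := exists_fixed_ne_zero (k := k)
    ((Submodule.span k {v : V | T v = v}).mapQ
      (Submodule.span k {v : V | T v = v}) T hle).toAddMonoidHom hq
    (fun c v => by simp [hφ]) hT'inj
  obtain ⟨u, rfl⟩ := Submodule.Quotient.mk_surjective _ ū
  have h1 : T u - u ∈ Submodule.span k {v : V | T v = v} := by
    rw [← Submodule.Quotient.mk_eq_zero, Submodule.Quotient.mk_sub, sub_eq_zero]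
    simpa using hūfix
  obtain ⟨x, hx, hTx⟩ := hB _ h1
  have h2 : T (u - x) = u - x := by
    rw [map_sub, ← sub_eq_zero]
    rw [← sub_eq_zero] at hTx
    have h5 : T u - T x - (u - x) = -(T x - x - (T u - u)) := by abel
    rw [h5, hTx, neg_zero]
  have h3 : u - x ∈ Submodule.span k {v : V | T v = v} := Submodule.subset_span h2
  have h4 : u ∈ Submodule.span k {v : V | T v = v} := by
    simpa using Submodule.add_mem _ h3 hx
  exact hū0 ((Submodule.Quotient.mk_eq_zero _).2 h4)

end Step2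

section Consumer

variable {k : Type*} [Field k] {V : Type*} [AddCommGroup V] [Module k V]

/-- On a nonzero space, the existence of an injective `q`-semilinear additive map forces
`x ↦ x ^ q` to be additive. -/
lemma pow_add_of_semilinear [Nontrivial V] (T : V →+ V) {q : ℕ}
    (hT : ∀ (c : k) (v : V), T (c • v) = c ^ q • T v) (hinj : Function.Injective T) (c d : k) :
    (c + d) ^ q = c ^ q + d ^ q := by
  obtain ⟨v, hv⟩ := exists_ne (0 : V)
  have hTv : T v ≠ 0 := fun h => hv (hinj (h.trans (map_zero T).symm))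
  have h1 := hT (c + d) v
  rw [add_smul, map_add, hT, hT, ← add_smul] at h1
  exact (smul_left_injective k hTv h1).symm

/-- The Frobenius `x ↦ x ^ q` as a ring endomorphism, given additivity. -/
noncomputable def frobHom (k : Type*) [Field k] (q : ℕ) (hq0 : q ≠ 0)
    (hadd : ∀ c d : k, (c + d) ^ q = c ^ q + d ^ q) : k →+* k where
  toFun c := c ^ q
  map_one' := one_pow q
  map_mul' := fun a b => mul_pow a b q
  map_zero' := zero_pow hq0
  map_add' := hadd

lemma frobHom_apply (q : ℕ) (hq0 : q ≠ 0)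
    (hadd : ∀ c d : k, (c + d) ^ q = c ^ q + d ^ q) (c : k) :
    frobHom k q hq0 hadd c = c ^ q := rfl

/-- If `x ↦ x ^ q` is additive on an infinite field and `1 < q`, then `q = 0` in the field. -/
lemma natCast_eq_zero_of_pow_add [Infinite k] {q : ℕ} (hq : 1 < q)
    (hadd : ∀ c d : k, (c + d) ^ q = c ^ q + d ^ q) : (q : k) = 0 := by
  have h1 : ((X : k[X]) + 1) ^ q = X ^ q + 1 := by
    refine Polynomial.funext (fun r => ?_)
    simp [hadd]
  have h2 := congrArg (fun P : k[X] => P.coeff 1) h1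
  simp only [coeff_X_add_one_pow, Nat.choose_one_right, coeff_add, coeff_X_pow, coeff_one] at h2
  have h3 : (1 : ℕ) ≠ q := by omega
  simpa [h3] using h2

variable [IsAlgClosed k]

/-- The number of solutions of `x ^ q = x` in an algebraically closed field in which `q = 0`. -/
lemma card_pow_eq_self {q : ℕ} (hq : 1 < q) (hq0 : (q : k) = 0) :
    Nat.card {x : k // x ^ q = x} = q := by
  classical
  obtain ⟨p, hp⟩ := CharP.exists k
  have hpq : p ∣ q := (CharP.cast_eq_zero_iff k p q).1 hq0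
  have hsep : (X ^ q - X : k[X]).Separable := galois_poly_separable p q hpq
  have hsplit : ((X ^ q - X : k[X]).map (algebraMap k k)).Splits := IsAlgClosed.splits _
  have h1 := card_rootSet_eq_natDegree (K := k) hsep hsplit
  rw [FiniteField.X_pow_card_sub_X_natDegree_eq k hq] at h1
  have hne : (X ^ q - X : k[X]) ≠ 0 := by
    intro h0
    have := FiniteField.X_pow_card_sub_X_natDegree_eq k hq
    rw [h0, natDegree_zero] at this
    omega
  have h2 : Nat.card {x : k // x ^ q = x} = Fintype.card ↑((X ^ q - X : k[X]).rootSet k) := by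
    rw [← Nat.card_eq_fintype_card]
    refine Nat.card_congr (Equiv.subtypeEquivRight (fun x => ?_))
    rw [mem_rootSet_of_ne hne]
    simp [sub_eq_zero]
  rw [h2, h1]

variable [FiniteDimensional k V]

/-- **Lang's lemma, additive form.** -/
theorem span_fixed_eq_top' (T : V →+ V) {q : ℕ} (hq : 1 < q)
    (hT : ∀ (c : k) (v : V), T (c • v) = c ^ q • T v) (hinj : Function.Injective T) :
    Submodule.span k {v : V | T v = v} = ⊤ := by
  rcases subsingleton_or_nontrivial V with h | h
  · exact Subsingleton.elim _ _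
  · let T' : V →ₛₗ[frobHom k q (by omega) (pow_add_of_semilinear T hT hinj)] V :=
      { toFun := T
        map_add' := map_add T
        map_smul' := fun c v => hT c v }
    exact span_fixed_eq_top hq (fun c => rfl) T' hinj

/-- **Lang's lemma, basis form.** `V` has a `k`-basis of `T`-fixed vectors. -/
theorem exists_basis_fixed (T : V →+ V) {q : ℕ} (hq : 1 < q)
    (hT : ∀ (c : k) (v : V), T (c • v) = c ^ q • T v) (hinj : Function.Injective T) :
    ∃ b : Module.Basis (Fin (Module.finrank k V)) k V, ∀ i, T (b i) = b i := by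
  classical
  obtain ⟨s, hs, hspan, hli⟩ := exists_linearIndependent k {v : V | T v = v}
  rw [span_fixed_eq_top' T hq hT hinj] at hspan
  let b0 : Module.Basis s k V := Module.Basis.mk hli (by
    rw [Subtype.range_coe_subtype, Set.ofPred_mem_eq, hspan])
  have hfin : Fintype s := FiniteDimensional.fintypeBasisIndex b0
  have hcard : Fintype.card s = Module.finrank k V := (Module.finrank_eq_card_basis b0).symm
  refine ⟨b0.reindex (Fintype.equivFinOfCardEq hcard), fun i => ?_⟩
  have h1 : (b0.reindex (Fintype.equivFinOfCardEq hcard)) i =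
      (((Fintype.equivFinOfCardEq hcard).symm i : s) : V) := by
    simp [b0]
  rw [h1]
  exact hs ((Fintype.equivFinOfCardEq hcard).symm i).2

omit [IsAlgClosed k] [FiniteDimensional k V] in
/-- The coordinates of `T v` in a basis of fixed vectors. -/
lemma repr_apply_of_fixed {n : ℕ} (T : V →+ V) {q : ℕ}
    (hT : ∀ (c : k) (v : V), T (c • v) = c ^ q • T v)
    (b : Module.Basis (Fin n) k V) (hb : ∀ i, T (b i) = b i) (v : V) (i : Fin n) :
    b.repr (T v) i = (b.repr v i) ^ q := by
  have h1 : T v = ∑ j, (b.repr v j) ^ q • b j := by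
    conv_lhs => rw [← b.sum_repr v]
    rw [map_sum]
    exact Finset.sum_congr rfl (fun j _ => by rw [hT, hb])
  rw [h1, b.repr_sum_self]

omit [IsAlgClosed k] [FiniteDimensional k V] in
/-- In a basis of fixed vectors, `v` is fixed iff all its coordinates lie in `𝔽_q`. -/
lemma fixed_iff_coord {n : ℕ} (T : V →+ V) {q : ℕ}
    (hT : ∀ (c : k) (v : V), T (c • v) = c ^ q • T v)
    (b : Module.Basis (Fin n) k V) (hb : ∀ i, T (b i) = b i) (v : V) :
    T v = v ↔ ∀ i, (b.repr v i) ^ q = b.repr v i := by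
  constructor
  · intro h i
    rw [← repr_apply_of_fixed T hT b hb v i, h]
  · intro h
    apply b.repr.injective
    ext i
    rw [repr_apply_of_fixed T hT b hb v i, h i]

/-- **Lang's lemma, counting form.** An injective `q`-semilinear additive endomorphism of a
finite-dimensional vector space over an algebraically closed field has exactly `q ^ dim V`
fixed vectors. -/
theorem card_fixed (T : V →+ V) {q : ℕ} (hq : 1 < q)
    (hT : ∀ (c : k) (v : V), T (c • v) = c ^ q • T v) (hinj : Function.Injective T) :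
    Nat.card {v : V // T v = v} = q ^ Module.finrank k V := by
  classical
  rcases subsingleton_or_nontrivial V with h | h
  · rw [Module.finrank_zero_of_subsingleton, pow_zero]
    exact Nat.card_eq_one_iff_unique.2 ⟨inferInstance, ⟨⟨0, map_zero T⟩⟩⟩
  · obtain ⟨b, hb⟩ := exists_basis_fixed T hq hT hinj
    have hq0 : (q : k) = 0 :=
      natCast_eq_zero_of_pow_add hq (pow_add_of_semilinear T hT hinj)
    have e1 : {v : V // T v = v} ≃
        {c : Fin (Module.finrank k V) → k // ∀ i, c i ^ q = c i} :=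
      Equiv.subtypeEquiv b.equivFun.toEquiv (fun v => by
        rw [fixed_iff_coord T hT b hb v]
        rfl)
    have e2 : {c : Fin (Module.finrank k V) → k // ∀ i, c i ^ q = c i} ≃
        (Fin (Module.finrank k V) → {x : k // x ^ q = x}) :=
      Equiv.subtypePiEquivPi (β := fun _ => k) (p := fun _ x => x ^ q = x)
    rw [Nat.card_congr (e1.trans e2), Nat.card_fun, card_pow_eq_self hq hq0, Nat.card_eq_fintype_card,
      Fintype.card_fin]

end Consumer

end Fermat.Agent.S27.Lang

namespace Fermat.Agent.S27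

/-- **Seat Z3a (LANG).**  (`[IsAlgClosed k]` is needed: for `k = 𝔽_p`, `f = 1`, `T` is an
arbitrary linear automorphism.  `hp`, `halg` and the surjectivity of `T` are not used.) -/
theorem card_fixed_semilinear {k V : Type*} [Field k] [AddCommGroup V] [Module k V]
    [FiniteDimensional k V] (p : ℕ) (hp : p.Prime) [CharP k p] [IsAlgClosed k] (f : ℕ)
    (hf : 0 < f)
    (halg : ∀ c : k, ∃ n : ℕ, 0 < n ∧ c ^ (p ^ n) = c)
    (T : V →+ V) (hT : Function.Bijective T)
    (hsl : ∀ (c : k) (v : V), T (c • v) = c ^ (p ^ f) • T v) :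
    Nat.card {v : V // T v = v} = (p ^ f) ^ Module.finrank k V := by
  have _ := halg
  have hq : 1 < p ^ f := Nat.one_lt_pow hf.ne' hp.one_lt
  exact Lang.card_fixed T hq hsl hT.1

end Fermat.Agent.S27
end MergeWrap_S27_Zeta_Lang

section MergeWrap_S27_Zeta_ClassCount -- from S27/Zeta/ClassCount.lean

set_option autoImplicit false
set_option linter.unusedSectionVars false
set_option linter.unusedVariables false
set_option linter.style.haveILetI false

/-!
# S27, part D, seat Z3b (CLASS): the number of invariant effective divisors in an invariant class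

`D₀` a divisor whose class is `σ`-invariant: `σ D₀ = D₀ + div u`.  The effective divisors linearly
equivalent to `D₀` are the `D₀ + div f`, `f ∈ L(D₀) \ {0}`, and `σ (D₀ + div f) = D₀ + div (u σ f)`.
So `σ` acts on `ℙ(L(D₀))` through the `q`-semilinear bijection `T f = u σ(f)` of `L(D₀)`.
A line `k f` is fixed iff `T f = λ f`; then `μ f` is a fixed VECTOR for `μ ^ (q - 1) = λ⁻¹`
(`k` algebraically closed), and the fixed vectors on a fixed line are the `𝔽_q`-multiples of one of
them.  With seat Z3a (`card_fixed_semilinear`): `(q - 1) #{invariant E} = q ^ ℓ(D₀) - 1`.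
-/

noncomputable section

open AlgebraicCurve

namespace Fermat.Agent.S27

open Fermat.Agent.RR

variable {k F : Type*} [Field k] [Field F] [Algebra k F]

namespace ClassCount

/-- every constant lies in a finite field. -/
theorem halg (S : FrobStr k F) (c : k) : ∃ n : ℕ, 0 < n ∧ c ^ (S.p ^ n) = c := by
  obtain ⟨m, hm, hx⟩ := S.orbit (algebraMap k F c)
  refine ⟨S.f * m, Nat.mul_pos S.hf hm, ?_⟩
  have h1 := SemilinearAut.smul_algebraMap (S.σ ^ m) c
  rw [hx, S.base_pow] at h1
  exact ((algebraMap k F).injective h1).symm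

theorem smul_algebraMap_σ (S : FrobStr k F) (c : k) :
    S.σ • algebraMap k F c = algebraMap k F (c ^ S.q) := by
  rw [SemilinearAut.smul_algebraMap, S.base]
  rfl

theorem ord_smul' (g : SemilinearAut k F) (w : Place k F) (f : F) :
    w.ord (g • f) = (g⁻¹ • w).ord f := by
  have h := SemilinearAut.ord_smul g (g⁻¹ • w) f
  rwa [smul_inv_smul] at h

theorem smul_ne_zero' (g : SemilinearAut k F) {f : F} (hf : f ≠ 0) : g • f ≠ 0 := by
  intro h0
  apply hf
  have := congrArg (fun x => g⁻¹ • x) h0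
  simpa using this

section T

variable (S : FrobStr k F) (D₀ : Divisor k F) (u : F)

/-- `σ D₀ - D₀ = div u` -/
def IsTwist : Prop := u ≠ 0 ∧ ∀ w : Place k F, (S.σ • D₀ - D₀) w = w.ord u

variable {S D₀ u}

theorem IsTwist.apply (hu : IsTwist S D₀ u) (w : Place k F) :
    D₀ (S.σ⁻¹ • w) - D₀ w = w.ord u := by
  rw [← hu.2 w, Finsupp.sub_apply, SemilinearAut.divisor_smul_apply]

theorem IsTwist.apply_smul (hu : IsTwist S D₀ u) (w : Place k F) :
    D₀ w - D₀ (S.σ • w) = (S.σ • w).ord u := by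
  have h := hu.apply (S.σ • w)
  rwa [inv_smul_smul] at h

/-- the order of `u σ(f)` -/
theorem IsTwist.ord_T (hu : IsTwist S D₀ u) {f : F} (hf : f ≠ 0) (w : Place k F) :
    w.ord (u * S.σ • f) = D₀ (S.σ⁻¹ • w) - D₀ w + (S.σ⁻¹ • w).ord f := by
  rw [w.ord_mul hu.1 (smul_ne_zero' S.σ hf), ord_smul', hu.apply w]

theorem IsTwist.mem_T (hu : IsTwist S D₀ u) {f : F} (hf : f ∈ riemannRochSpace D₀) :
    u * S.σ • f ∈ riemannRochSpace D₀ := by
  rw [mem_riemannRochSpace_iff] at hf ⊢
  intro w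
  rcases eq_or_ne f 0 with rfl | hf0
  · left
    rw [smul_zero, mul_zero]
  · right
    have h1 := (hf (S.σ⁻¹ • w)).resolve_left hf0
    rw [hu.ord_T hf0 w]
    linarith

theorem IsTwist.mem_Tinv (hu : IsTwist S D₀ u) {g : F} (hg : g ∈ riemannRochSpace D₀) :
    S.σ⁻¹ • (u⁻¹ * g) ∈ riemannRochSpace D₀ := by
  rw [mem_riemannRochSpace_iff] at hg ⊢
  intro w
  rcases eq_or_ne g 0 with rfl | hg0
  · left
    rw [mul_zero, smul_zero]
  · right
    have h1 := (hg (S.σ • w)).resolve_left hg0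
    have h2 := hu.apply_smul w
    rw [ord_smul', inv_inv, (S.σ • w).ord_mul (inv_ne_zero hu.1) hg0, Place.ord_inv]
    linarith

/-- the `q`-semilinear map `T f = u σ(f)` of `L(D₀)` -/
def T (hu : IsTwist S D₀ u) : ↥(riemannRochSpace D₀) →+ ↥(riemannRochSpace D₀) where
  toFun f := ⟨u * S.σ • (f : F), hu.mem_T f.2⟩
  map_zero' := by
    apply Subtype.ext
    show u * S.σ • ((0 : ↥(riemannRochSpace D₀)) : F) = 0
    rw [Submodule.coe_zero, smul_zero, mul_zero]
  map_add' a b := by
    apply Subtype.ext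
    show u * S.σ • ((a + b : ↥(riemannRochSpace D₀)) : F) = u * S.σ • (a : F) + u * S.σ • (b : F)
    rw [Submodule.coe_add, smul_add, mul_add]

theorem coe_T (hu : IsTwist S D₀ u) (f : ↥(riemannRochSpace D₀)) :
    ((T hu f : ↥(riemannRochSpace D₀)) : F) = u * S.σ • (f : F) := rfl

theorem T_smul (hu : IsTwist S D₀ u) (c : k) (f : ↥(riemannRochSpace D₀)) :
    T hu (c • f) = c ^ (S.p ^ S.f) • T hu f := by
  apply Subtype.ext
  rw [coe_T, Submodule.coe_smul, Submodule.coe_smul, coe_T, Algebra.smul_def, Algebra.smul_def,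
    smul_mul', smul_algebraMap_σ]
  show u * (algebraMap k F (c ^ S.q) * S.σ • (f : F)) =
    algebraMap k F (c ^ S.p ^ S.f) * (u * S.σ • (f : F))
  rw [FrobStr.q]
  ring

theorem T_bijective (hu : IsTwist S D₀ u) : Function.Bijective (T hu) := by
  constructor
  · intro a b hab
    have h1 := congrArg Subtype.val hab
    rw [coe_T, coe_T] at h1
    have h2 := mul_left_cancel₀ hu.1 h1
    apply Subtype.ext
    have h3 := congrArg (fun x => S.σ⁻¹ • x) h2
    simpa using h3
  · intro g
    refine ⟨⟨S.σ⁻¹ • (u⁻¹ * (g : F)), hu.mem_Tinv g.2⟩, ?_⟩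
    apply Subtype.ext
    rw [coe_T]
    show u * S.σ • (S.σ⁻¹ • (u⁻¹ * (g : F))) = g
    rw [smul_inv_smul, mul_inv_cancel_left₀ hu.1]


/-- two functions with the same divisor differ by a constant. -/
theorem exists_const_of_ord_eq (hRR : IsRRField k F) {f g : F} (hf : f ≠ 0) (hg : g ≠ 0)
    (h : ∀ v : Place k F, v.ord g = v.ord f) :
    ∃ c : k, c ≠ 0 ∧ g = algebraMap k F c * f := by
  have hq0 : g / f ≠ 0 := div_ne_zero hg hf
  have hmem : g / f ∈ riemannRochSpace (0 : Divisor k F) := by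
    rw [mem_riemannRochSpace_iff]
    intro v
    right
    rw [div_eq_mul_inv, v.ord_mul hg (inv_ne_zero hf), Place.ord_inv, h v]
    simp
  obtain ⟨c, hc⟩ := (mem_riemannRochSpace_zero_iff hRR (g / f)).mp hmem
  refine ⟨c, ?_, ?_⟩
  · rintro rfl
    rw [map_zero] at hc
    exact hq0 hc.symm
  · rw [hc, div_mul_cancel₀ _ hf]

/-- the set of invariant effective divisors in the class of `D₀` -/
abbrev InvEff (S : FrobStr k F) (D₀ : Divisor k F) : Type _ :=
  {E : Divisor k F // 0 ≤ E ∧ E - D₀ ∈ Divisor.principal (K := k) (F := F) ∧ S.σ • E = E}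

/-- the nonzero fixed vectors of `T` -/
abbrev FixNz (hu : IsTwist S D₀ u) : Type _ :=
  {x : ↥(riemannRochSpace D₀) // T hu x = x ∧ x ≠ 0}

/-- the nonzero elements of `𝔽_q` -/
abbrev FqNz (S : FrobStr k F) : Type _ := {c : k // c ^ (S.p ^ S.f) = c ∧ c ≠ 0}

/-- the divisor `D₀ + div x` of a fixed vector is invariant -/
theorem IsTwist.invariant_of_fixed (hu : IsTwist S D₀ u) {x : F} (hx0 : x ≠ 0)
    (hx : u * S.σ • x = x) {E : Divisor k F} (hE : ∀ v : Place k F, E v = D₀ v + v.ord x) :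
    S.σ • E = E := by
  ext w
  rw [SemilinearAut.divisor_smul_apply, hE, hE]
  have h1 := hu.ord_T hx0 w
  rw [hx] at h1
  linarith

/-- an invariant effective divisor in the class of `D₀` is `D₀ + div x`, `x` a fixed vector -/
theorem IsTwist.exists_rep [IsAlgClosed k] (hRR : IsRRField k F) (hu : IsTwist S D₀ u)
    (E : InvEff S D₀) :
    ∃ x : ↥(riemannRochSpace D₀), T hu x = x ∧ x ≠ 0 ∧
      ∀ v : Place k F, (E : Divisor k F) v = D₀ v + v.ord (x : F) := by
  obtain ⟨E, hE0, ⟨f₀, hf₀, hEf⟩, hEσ⟩ := E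
  have hEf' : ∀ v : Place k F, E v = D₀ v + v.ord f₀ := by
    intro v
    have := hEf v
    rw [Finsupp.sub_apply] at this
    linarith
  have hmem : f₀ ∈ riemannRochSpace D₀ := by
    rw [mem_riemannRochSpace_iff]
    intro v
    right
    have h1 := hEf' v
    have h2 : (0 : ℤ) ≤ E v := by
      have := (Finsupp.le_def.mp hE0) v
      simpa using this
    linarith
  -- `T f₀ = λ f₀`
  have hT0 : u * S.σ • f₀ ≠ 0 := mul_ne_zero hu.1 (smul_ne_zero' S.σ hf₀)
  have hord : ∀ v : Place k F, v.ord (u * S.σ • f₀) = v.ord f₀ := by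
    intro w
    rw [hu.ord_T hf₀ w]
    have h1 := hEf' (S.σ⁻¹ • w)
    have h2 := hEf' w
    have h3 : (S.σ • E) w = E w := by rw [hEσ]
    rw [SemilinearAut.divisor_smul_apply] at h3
    linarith
  obtain ⟨lam, hlam0, hlam⟩ := exists_const_of_ord_eq hRR hf₀ hT0 hord
  -- `μ ^ (q - 1) = λ⁻¹`
  have hq1 : 0 < S.p ^ S.f - 1 := by
    have := S.one_lt_q
    unfold FrobStr.q at this
    omega
  obtain ⟨μ, hμ⟩ := IsAlgClosed.exists_pow_nat_eq lam⁻¹ hq1
  have hμ0 : μ ≠ 0 := by
    rintro rfl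
    rw [zero_pow hq1.ne'] at hμ
    exact inv_ne_zero hlam0 hμ.symm
  have hμq : μ ^ (S.p ^ S.f) * lam = μ := by
    have e : S.p ^ S.f = (S.p ^ S.f - 1) + 1 := by omega
    rw [e, pow_succ, hμ]
    field_simp
  refine ⟨μ • ⟨f₀, hmem⟩, ?_, ?_, ?_⟩
  · rw [T_smul]
    apply Subtype.ext
    rw [Submodule.coe_smul, Submodule.coe_smul, coe_T]
    show μ ^ (S.p ^ S.f) • (u * S.σ • f₀) = μ • f₀
    rw [hlam, Algebra.smul_def, Algebra.smul_def, ← mul_assoc, ← map_mul, hμq]
  · intro h0
    have h1 := congrArg Subtype.val h0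
    rw [Submodule.coe_smul] at h1
    have h2 : μ • f₀ = 0 := h1
    rw [smul_eq_zero] at h2
    rcases h2 with h2 | h2
    · exact hμ0 h2
    · exact hf₀ h2
  · intro v
    rw [Submodule.coe_smul]
    show E v = D₀ v + v.ord (μ • f₀)
    rw [Algebra.smul_def, v.ord_mul ((map_ne_zero _).mpr hμ0) hf₀,
      Fermat.Agent.S24Res.ord_algebraMap, zero_add]
    exact hEf' v

end T

/-! ### counting -/

/-- removing one element. -/
theorem card_ne_add_one {α : Type*} (P : α → Prop) (a₀ : α) (h0 : P a₀)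
    (hfin : Finite {x : α // P x}) :
    Nat.card {x : α // P x ∧ x ≠ a₀} + 1 = Nat.card {x : α // P x} := by
  have hs : {x : α | P x}.Finite := Set.finite_coe_iff.mp hfin
  have h1 := Set.ncard_sdiff_singleton_add_one (a := a₀) (s := {x : α | P x}) h0 hs
  have e1 : Nat.card {x : α // P x} = {x : α | P x}.ncard := Nat.card_coe_set_eq _
  have e2 : Nat.card {x : α // P x ∧ x ≠ a₀} = ({x : α | P x} \ {a₀}).ncard := by
    rw [← Nat.card_coe_set_eq]
    rfl
  rw [e1, e2, h1]

/-- `#𝔽_q = q` -/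
theorem card_Fq (S : FrobStr k F) [IsAlgClosed k] :
    Nat.card {c : k // c ^ (S.p ^ S.f) = c} = S.p ^ S.f := by
  haveI := S.char
  haveI : Fact S.p.Prime := ⟨S.hp⟩
  haveI : ExpChar k S.p := ExpChar.prime S.hp
  have h := card_fixed_semilinear (k := k) (V := k) S.p S.hp S.f S.hf (halg S)
    (iterateFrobenius k S.p S.f).toAddMonoidHom (bijective_iterateFrobenius k S.p S.f)
    (fun c v => by
      show iterateFrobenius k S.p S.f (c • v) = c ^ (S.p ^ S.f) • iterateFrobenius k S.p S.f v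
      rw [smul_eq_mul, map_mul, smul_eq_mul, iterateFrobenius_def])
  rw [Module.finrank_self, pow_one] at h
  refine Eq.trans (Nat.card_congr (Equiv.subtypeEquivRight fun c => ?_)) h
  show c ^ (S.p ^ S.f) = c ↔ iterateFrobenius k S.p S.f c = c
  rw [iterateFrobenius_def]

theorem card_FqNz (S : FrobStr k F) [IsAlgClosed k] :
    Nat.card (FqNz S) + 1 = S.p ^ S.f := by
  rw [← card_Fq S]
  refine card_ne_add_one (fun c : k => c ^ (S.p ^ S.f) = c) 0 ?_ ?_
  · have : 0 < S.p ^ S.f := pow_pos S.hp.pos _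
    exact zero_pow this.ne'
  · apply Nat.finite_of_card_ne_zero
    rw [card_Fq S]
    exact (pow_pos S.hp.pos _).ne'

section Count

variable {S : FrobStr k F} {D₀ : Divisor k F} {u : F}

theorem card_fix [IsAlgClosed k] (hRR : IsRRField k F) (hu : IsTwist S D₀ u) :
    Nat.card {x : ↥(riemannRochSpace D₀) // T hu x = x} = (S.p ^ S.f) ^ ell D₀ := by
  haveI := S.char
  haveI : Module.Finite k ↥(riemannRochSpace D₀) := finite_riemannRochSpace hRR D₀
  exact card_fixed_semilinear S.p S.hp S.f S.hf (halg S) (T hu) (T_bijective hu) (T_smul hu)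

theorem card_FixNz [IsAlgClosed k] (hRR : IsRRField k F) (hu : IsTwist S D₀ u) :
    Nat.card (FixNz hu) + 1 = (S.p ^ S.f) ^ ell D₀ := by
  rw [← card_fix hRR hu]
  refine card_ne_add_one (fun x : ↥(riemannRochSpace D₀) => T hu x = x) 0 (map_zero _) ?_
  apply Nat.finite_of_card_ne_zero
  rw [card_fix hRR hu]
  exact (pow_pos (pow_pos S.hp.pos _) _).ne'

/-- a representative fixed vector of an invariant effective divisor -/
def rep [IsAlgClosed k] (hRR : IsRRField k F) (hu : IsTwist S D₀ u) (E : InvEff S D₀) :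
    ↥(riemannRochSpace D₀) :=
  (hu.exists_rep hRR E).choose

theorem rep_spec [IsAlgClosed k] (hRR : IsRRField k F) (hu : IsTwist S D₀ u) (E : InvEff S D₀) :
    T hu (rep hRR hu E) = rep hRR hu E ∧ rep hRR hu E ≠ 0 ∧
      ∀ v : Place k F, (E : Divisor k F) v = D₀ v + v.ord (rep hRR hu E : F) :=
  (hu.exists_rep hRR E).choose_spec

theorem coe_ne_zero {x : ↥(riemannRochSpace D₀)} (hx : x ≠ 0) : (x : F) ≠ 0 :=
  fun h => hx (Subtype.ext h)

/-- the parametrisation of the fixed vectors -/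
def param [IsAlgClosed k] (hRR : IsRRField k F) (hu : IsTwist S D₀ u) :
    InvEff S D₀ × FqNz S → FixNz hu := fun Ec =>
  ⟨(Ec.2 : k) • rep hRR hu Ec.1, by
    rw [T_smul, (rep_spec hRR hu Ec.1).1, Ec.2.2.1], by
    intro h0
    rw [smul_eq_zero] at h0
    rcases h0 with h0 | h0
    · exact Ec.2.2.2 h0
    · exact (rep_spec hRR hu Ec.1).2.1 h0⟩

theorem coe_param [IsAlgClosed k] (hRR : IsRRField k F) (hu : IsTwist S D₀ u)
    (Ec : InvEff S D₀ × FqNz S) :
    (((param hRR hu Ec : FixNz hu) : ↥(riemannRochSpace D₀)) : F) =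
      algebraMap k F (Ec.2 : k) * (rep hRR hu Ec.1 : F) := by
  show (((Ec.2 : k) • rep hRR hu Ec.1 : ↥(riemannRochSpace D₀)) : F) = _
  rw [Submodule.coe_smul, Algebra.smul_def]

theorem ord_param [IsAlgClosed k] (hRR : IsRRField k F) (hu : IsTwist S D₀ u)
    (Ec : InvEff S D₀ × FqNz S) (v : Place k F) :
    (Ec.1 : Divisor k F) v = D₀ v +
      v.ord (((param hRR hu Ec : FixNz hu) : ↥(riemannRochSpace D₀)) : F) := by
  rw [coe_param, v.ord_mul ((map_ne_zero _).mpr Ec.2.2.2)
    (coe_ne_zero (rep_spec hRR hu Ec.1).2.1), Fermat.Agent.S24Res.ord_algebraMap, zero_add]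
  exact (rep_spec hRR hu Ec.1).2.2 v

theorem param_injective [IsAlgClosed k] (hRR : IsRRField k F) (hu : IsTwist S D₀ u) :
    Function.Injective (param hRR hu) := by
  rintro ⟨E, c⟩ ⟨E', c'⟩ h
  have hE : E = E' := by
    apply Subtype.ext
    ext v
    rw [ord_param hRR hu (E, c) v, ord_param hRR hu (E', c') v, h]
  subst hE
  have h1 := congrArg (fun x : FixNz hu => ((x : ↥(riemannRochSpace D₀)) : F)) h
  simp only [coe_param] at h1
  have h2 := mul_right_cancel₀ (coe_ne_zero (rep_spec hRR hu E).2.1) h1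
  have h3 : (c : k) = c' := (algebraMap k F).injective h2
  rw [Prod.mk.injEq]
  exact ⟨rfl, Subtype.ext h3⟩

theorem param_surjective [IsAlgClosed k] (hRR : IsRRField k F) (hu : IsTwist S D₀ u) :
    Function.Surjective (param hRR hu) := by
  rintro ⟨x, hxT, hx0⟩
  have hxF : (x : F) ≠ 0 := coe_ne_zero hx0
  have hxT' : u * S.σ • (x : F) = x := by
    have := congrArg Subtype.val hxT
    rwa [coe_T] at this
  -- the divisor of `x`
  have hEv : ∀ v : Place k F, (D₀ + divOf hRR (x : F)) v = D₀ v + v.ord (x : F) := by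
    intro v
    rw [Finsupp.add_apply, divOf_apply]
  have hE0 : 0 ≤ D₀ + divOf hRR (x : F) := by
    have h1 := (mem_riemannRochSpace_iff_le hRR hxF).mp x.2
    rw [Finsupp.le_def] at h1 ⊢
    intro v
    have h2 := h1 v
    simp only [Finsupp.neg_apply, Finsupp.add_apply, Finsupp.coe_zero, Pi.zero_apply] at h2 ⊢
    linarith
  have hEp : D₀ + divOf hRR (x : F) - D₀ ∈ Divisor.principal (K := k) (F := F) := by
    refine ⟨(x : F), hxF, fun v => ?_⟩
    rw [add_sub_cancel_left, divOf_apply]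
  set E : InvEff S D₀ := ⟨D₀ + divOf hRR (x : F), hE0, hEp, hu.invariant_of_fixed hxF hxT' hEv⟩
    with hE
  obtain ⟨hrT, hr0, hrv⟩ := rep_spec hRR hu E
  have hrF : (rep hRR hu E : F) ≠ 0 := coe_ne_zero hr0
  have hord : ∀ v : Place k F, v.ord (x : F) = v.ord (rep hRR hu E : F) := by
    intro v
    have h1 := hrv v
    have h2 := hEv v
    have h3 : (E : Divisor k F) v = (D₀ + divOf hRR (x : F)) v := rfl
    linarith
  obtain ⟨c, hc0, hc⟩ := exists_const_of_ord_eq hRR hrF hxF hord
  have hx' : x = c • rep hRR hu E := by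
    apply Subtype.ext
    rw [Submodule.coe_smul, Algebra.smul_def]
    exact hc
  have hcq : c ^ (S.p ^ S.f) = c := by
    have h1 := hxT
    rw [hx', T_smul, hrT] at h1
    exact smul_left_injective k hr0 h1
  refine ⟨(E, ⟨c, hcq, hc0⟩), ?_⟩
  apply Subtype.ext
  exact hx'.symm

theorem card_prod_eq [IsAlgClosed k] (hRR : IsRRField k F) (hu : IsTwist S D₀ u) :
    Nat.card (InvEff S D₀) * Nat.card (FqNz S) = Nat.card (FixNz hu) := by
  rw [← Nat.card_prod]
  exact Nat.card_congr (Equiv.ofBijective (param hRR hu)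
    ⟨param_injective hRR hu, param_surjective hRR hu⟩)

end Count

end ClassCount

/-- **Seat Z3b (CLASS).** -/
theorem card_effInv_class (hRR : IsRRField k F) (S : FrobStr k F) [IsAlgClosed k]
    (D₀ : Divisor k F) (hD₀ : S.σ • D₀ - D₀ ∈ Divisor.principal (K := k) (F := F)) :
    Nat.card {E : Divisor k F // 0 ≤ E ∧ E - D₀ ∈ Divisor.principal (K := k) (F := F) ∧
        S.σ • E = E} * (S.q - 1)
      = S.q ^ ell D₀ - 1 := by
  obtain ⟨u, hu0, hu⟩ := hD₀
  have hu' : ClassCount.IsTwist S D₀ u := ⟨hu0, hu⟩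
  have h1 := ClassCount.card_prod_eq hRR hu'
  have h2 := ClassCount.card_FixNz hRR hu'
  have h3 := ClassCount.card_FqNz S
  have e1 : Nat.card (ClassCount.FqNz S) = S.q - 1 := by
    unfold FrobStr.q
    omega
  have e2 : Nat.card (ClassCount.FixNz hu') = S.q ^ ell D₀ - 1 := by
    unfold FrobStr.q
    omega
  rw [← e1, ← e2]
  exact h1

end Fermat.Agent.S27
end
end MergeWrap_S27_Zeta_ClassCount

section MergeWrap_S27_Zeta_Rat_Classes -- from S27/Zeta/Rat/Classes.lean

set_option autoImplicit false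

/-!
# S27, part D, seat Z4 (RAT), part 1: classes, fibres of `cls`, finiteness of `J₁`

* `z4D S x d` : a divisor of degree `d` whose `cls` is `x` (a representative of `x` plus `d P₀`);
* `z4Fib S d x` : the invariant effective divisors linearly equivalent to `z4D S x d`
  (`= effInv d ∩ cls⁻¹ x`, `mem_z4Fib_iff`);
* `z4G q n = 1 + q + ⋯ + q^(n-1)`;  `card_z4Fib` : `#z4Fib S d x = z4G q (ℓ (z4D S x d))`
  for `x ∈ J₁` (seat Z3b);
* `finite_fixed_one'` : `J₁` is finite.
-/

noncomputable section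

open AlgebraicCurve

namespace Fermat.Agent.S27

open Fermat.Agent.RR

variable {k F : Type*} [Field k] [Field F] [Algebra k F]

/-- principal divisors have degree `0` -/
theorem z4_degree_of_principal (hRR : IsRRField k F) {D : Divisor k F}
    (hD : D ∈ Divisor.principal (K := k) (F := F)) : Divisor.degree D = 0 := by
  obtain ⟨f, hf, hD⟩ := hD
  have : D = divOf hRR f := by
    ext v
    rw [hD v, divOf_apply]
  rw [this, degree_divOf]

/-- `div f` is principal -/
theorem z4_divOf_mem_principal (hRR : IsRRField k F) {f : F} (hf : f ≠ 0) :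
    divOf hRR f ∈ Divisor.principal (K := k) (F := F) :=
  ⟨f, hf, fun v => divOf_apply hRR f v⟩

/-- a principal divisor is a `div f` -/
theorem z4_exists_divOf (hRR : IsRRField k F) {D : Divisor k F}
    (hD : D ∈ Divisor.principal (K := k) (F := F)) : ∃ f : F, f ≠ 0 ∧ D = divOf hRR f := by
  obtain ⟨f, hf, hD⟩ := hD
  refine ⟨f, hf, ?_⟩
  ext v
  rw [hD v, divOf_apply]

/-- equality of classes -/
theorem z4_mk_eq_mk_iff (D E : Divisor.degZero (K := k) (F := F)) :
    Pic0.mk D = Pic0.mk E ↔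
      (D : Divisor k F) - (E : Divisor k F) ∈ Divisor.principal (K := k) (F := F) := by
  unfold Pic0.mk
  rw [QuotientAddGroup.eq, AddSubgroup.mem_addSubgroupOf]
  have h1 : ((-D + E : Divisor.degZero (K := k) (F := F)) : Divisor k F)
      = -((D : Divisor k F) - (E : Divisor k F)) := by
    rw [AddSubgroup.coe_add, AddSubgroup.coe_neg]
    abel
  rw [h1, neg_mem_iff]

/-- `ℓ` only depends on the class -/
theorem z4_ell_congr (hRR : IsRRField k F) {D E : Divisor k F}
    (h : D - E ∈ Divisor.principal (K := k) (F := F)) : ell D = ell E := by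
  obtain ⟨f, hf, hD⟩ := z4_exists_divOf hRR h
  have : D = E + divOf hRR f := by rw [← hD]; abel
  rw [this, ell_add_divOf hRR E hf]

open Classical in
/-- `ℓ` of a divisor of degree `0` -/
theorem z4_ell_degZero (hRR : IsRRField k F) {D : Divisor k F} (hD : Divisor.degree D = 0) :
    ell D = if D ∈ Divisor.principal (K := k) (F := F) then 1 else 0 := by
  split_ifs with h
  · have h' : D - 0 ∈ Divisor.principal (K := k) (F := F) := by rwa [sub_zero]
    rw [z4_ell_congr hRR h', ell_zero hRR]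
  · by_contra hne
    apply h
    have hbot : riemannRochSpace D ≠ ⊥ := by
      intro hbot
      apply hne
      rw [ell_def, hbot, finrank_bot]
    obtain ⟨f, hfD, hf0⟩ := Submodule.exists_mem_ne_zero_of_ne_bot hbot
    have := divOf_eq_neg_of_mem_of_degree_eq_zero hRR hf0 hfD hD
    have h2 : D = -divOf hRR f := by rw [this, neg_neg]
    rw [h2]
    exact neg_mem (z4_divOf_mem_principal hRR hf0)

/-- `ℓ` is invariant under semilinear automorphisms -/
theorem z4_ell_smul (g : SemilinearAut k F) (D : Divisor k F) : ell (g • D) = ell D := by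
  have hmem : ∀ (g : SemilinearAut k F) (D : Divisor k F) (f : F),
      f ∈ riemannRochSpace D → g • f ∈ riemannRochSpace (g • D) := by
    intro g D f hf
    rw [mem_riemannRochSpace_iff] at hf ⊢
    intro w
    rcases hf (g⁻¹ • w) with h0 | h1
    · left
      rw [h0, smul_zero]
    · right
      rw [SemilinearAut.divisor_smul_apply]
      have := SemilinearAut.ord_smul g (g⁻¹ • w) f
      rw [smul_inv_smul] at this
      rw [this]
      exact h1
  let e : riemannRochSpace D ≃+ riemannRochSpace (g • D) :=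
    { toFun := fun f => ⟨g • (f : F), hmem g D f f.2⟩
      invFun := fun f => ⟨g⁻¹ • (f : F), by
        have := hmem g⁻¹ (g • D) f f.2
        rwa [inv_smul_smul] at this⟩
      left_inv := fun f => Subtype.ext (inv_smul_smul g (f : F))
      right_inv := fun f => Subtype.ext (smul_inv_smul g (f : F))
      map_add' := fun f f' => Subtype.ext (smul_add g (f : F) (f' : F)) }
  have hrank : Module.rank k (riemannRochSpace D) = Module.rank k (riemannRochSpace (g • D)) := by
    refine rank_eq_of_equiv_equiv (SemilinearAut.baseAut g) e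
      (SemilinearAut.baseAut g).bijective ?_
    intro c f
    apply Subtype.ext
    show g • ((c • f : riemannRochSpace D) : F) = SemilinearAut.baseAut g c • (g • (f : F))
    rw [Submodule.coe_smul, Algebra.smul_def, Algebra.smul_def, smul_mul',
      SemilinearAut.smul_algebraMap]
  rw [ell_def, ell_def, Module.finrank, Module.finrank, hrank]

/-! ### `cls` and representatives -/

theorem z4_degree_P₀ (hRR : IsRRField k F) (S : FrobStr k F) (n : ℤ) :
    Divisor.degree (n • Finsupp.single S.P₀ (1 : ℤ)) = n := by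
  rw [map_zsmul, degree_single_one hRR, smul_eq_mul, mul_one]

theorem z4_degree_sub (hRR : IsRRField k F) (S : FrobStr k F) (D : Divisor k F) :
    Divisor.degree (D - Divisor.degree D • Finsupp.single S.P₀ (1 : ℤ)) = 0 := by
  rw [map_sub, z4_degree_P₀ hRR, sub_self]

theorem z4_cls_eq (hRR : IsRRField k F) (S : FrobStr k F) (D : Divisor k F) :
    S.cls D = Pic0.mk ⟨D - Divisor.degree D • Finsupp.single S.P₀ (1 : ℤ),
      z4_degree_sub hRR S D⟩ := by
  unfold FrobStr.cls
  rw [dif_pos (z4_degree_sub hRR S D)]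

/-- a representative of a class -/
def z4Rep (x : Pic0 k F) : Divisor.degZero (K := k) (F := F) := (Pic0.mk_surjective x).choose

theorem z4Rep_spec (x : Pic0 k F) : Pic0.mk (z4Rep x) = x := (Pic0.mk_surjective x).choose_spec

theorem z4Rep_degree (x : Pic0 k F) : Divisor.degree (z4Rep x : Divisor k F) = 0 :=
  (z4Rep x).2

/-- a divisor of degree `d` with class `x` -/
def z4D (S : FrobStr k F) (x : Pic0 k F) (d : ℕ) : Divisor k F :=
  (z4Rep x : Divisor k F) + (d : ℤ) • Finsupp.single S.P₀ (1 : ℤ)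

theorem z4D_degree (hRR : IsRRField k F) (S : FrobStr k F) (x : Pic0 k F) (d : ℕ) :
    Divisor.degree (z4D S x d) = d := by
  unfold z4D
  rw [map_add, z4Rep_degree, z4_degree_P₀ hRR, zero_add]

/-- the fibre of `cls` over `x` in degree `d` -/
theorem z4_cls_eq_iff (hRR : IsRRField k F) (S : FrobStr k F) (x : Pic0 k F) (d : ℕ)
    {E : Divisor k F} (hE : Divisor.degree E = d) :
    S.cls E = x ↔ E - z4D S x d ∈ Divisor.principal (K := k) (F := F) := by
  rw [z4_cls_eq hRR S E]
  conv_lhs => rw [← z4Rep_spec x]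
  rw [z4_mk_eq_mk_iff]
  have : (E - Divisor.degree E • Finsupp.single S.P₀ (1 : ℤ)) - (z4Rep x : Divisor k F)
      = E - z4D S x d := by
    rw [hE]
    unfold z4D
    abel
  show (E - Divisor.degree E • Finsupp.single S.P₀ (1 : ℤ)) - (z4Rep x : Divisor k F) ∈ _ ↔ _
  rw [this]

theorem z4_cls_z4D (hRR : IsRRField k F) (S : FrobStr k F) (x : Pic0 k F) (d : ℕ) :
    S.cls (z4D S x d) = x := by
  rw [z4_cls_eq_iff hRR S x d (z4D_degree hRR S x d), sub_self]
  exact zero_mem _

/-- `σ • cls D = cls (σ • D)` -/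
theorem z4_smul_cls (hRR : IsRRField k F) (S : FrobStr k F) (D : Divisor k F) :
    S.σ • S.cls D = S.cls (S.σ • D) := by
  rw [z4_cls_eq hRR S D, z4_cls_eq hRR S (S.σ • D), SemilinearAut.pic0_smul_mk]
  refine congrArg Pic0.mk (Subtype.ext ?_)
  rw [SemilinearAut.coe_degZeroSMulHom]
  show S.σ • (D - Divisor.degree D • Finsupp.single S.P₀ (1 : ℤ))
    = S.σ • D - Divisor.degree (S.σ • D) • Finsupp.single S.P₀ (1 : ℤ)
  rw [smul_sub, SemilinearAut.degree_smul, smul_comm, SemilinearAut.smul_single, S.fixed]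

theorem z4_mem_fixed_iff (S : FrobStr k F) (x : Pic0 k F) :
    x ∈ fixedPow S.sigmaEnd 1 ↔ S.σ • x = x := by
  rw [mem_fixedPow, pow_one, FrobStr.sigmaEnd_apply]

/-- the class of an invariant divisor is invariant -/
theorem z4_cls_mem_fixed (hRR : IsRRField k F) (S : FrobStr k F) {D : Divisor k F}
    (hD : S.σ • D = D) : S.cls D ∈ fixedPow S.sigmaEnd 1 := by
  rw [z4_mem_fixed_iff, z4_smul_cls hRR, hD]

/-- for an invariant class, `σ • D - D` is principal -/
theorem z4_smul_sub_mem (hRR : IsRRField k F) (S : FrobStr k F) {D : Divisor k F}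
    (hD : S.cls D ∈ fixedPow S.sigmaEnd 1) :
    S.σ • D - D ∈ Divisor.principal (K := k) (F := F) := by
  rw [z4_mem_fixed_iff, z4_smul_cls hRR, z4_cls_eq hRR, z4_cls_eq hRR, z4_mk_eq_mk_iff] at hD
  have : (S.σ • D - Divisor.degree (S.σ • D) • Finsupp.single S.P₀ (1 : ℤ))
      - (D - Divisor.degree D • Finsupp.single S.P₀ (1 : ℤ)) = S.σ • D - D := by
    rw [SemilinearAut.degree_smul]
    abel
  rw [← this]
  exact hD

/-! ### the fibres -/

/-- the invariant effective divisors linearly equivalent to `z4D S x d` -/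
def z4Fib (S : FrobStr k F) (d : ℕ) (x : Pic0 k F) : Set (Divisor k F) :=
  {E | 0 ≤ E ∧ E - z4D S x d ∈ Divisor.principal (K := k) (F := F) ∧ S.σ • E = E}

theorem mem_z4Fib_iff (hRR : IsRRField k F) (S : FrobStr k F) (d : ℕ) (x : Pic0 k F)
    (E : Divisor k F) : E ∈ z4Fib S d x ↔ E ∈ S.effInv d ∧ S.cls E = x := by
  constructor
  · rintro ⟨h0, hp, hσ⟩
    have hdeg : Divisor.degree E = d := by
      have := z4_degree_of_principal hRR hp
      rw [map_sub, z4D_degree hRR] at this
      linarith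
    exact ⟨⟨h0, hdeg, hσ⟩, (z4_cls_eq_iff hRR S x d hdeg).mpr hp⟩
  · rintro ⟨⟨h0, hdeg, hσ⟩, hx⟩
    exact ⟨h0, (z4_cls_eq_iff hRR S x d hdeg).mp hx, hσ⟩

theorem z4Fib_subset (hRR : IsRRField k F) (S : FrobStr k F) (d : ℕ) (x : Pic0 k F) :
    z4Fib S d x ⊆ S.effInv d := fun E hE => ((mem_z4Fib_iff hRR S d x E).mp hE).1

theorem z4Fib_finite (hRR : IsRRField k F) (S : FrobStr k F) (d : ℕ) (x : Pic0 k F) :
    (z4Fib S d x).Finite := (effInv_finite hRR S d).subset (z4Fib_subset hRR S d x)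

/-- `1 + q + ⋯ + q^(n-1)` -/
def z4G (q : ℕ) (n : ℕ) : ℤ := ∑ i ∈ Finset.range n, (q : ℤ) ^ i

theorem z4G_zero (q : ℕ) : z4G q 0 = 0 := by
  unfold z4G
  rw [Finset.sum_range_zero]

theorem z4G_succ (q n : ℕ) : z4G q (n + 1) = q * z4G q n + 1 := by
  unfold z4G
  rw [geom_sum_succ]

theorem z4G_succ' (q n : ℕ) : z4G q (n + 1) = z4G q n + (q : ℤ) ^ n := by
  unfold z4G
  rw [Finset.sum_range_succ]

theorem z4G_mul (q n : ℕ) : z4G q n * ((q : ℤ) - 1) = (q : ℤ) ^ n - 1 := by
  unfold z4G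
  rw [geom_sum_mul]

theorem z4G_pos (q n : ℕ) (hn : 0 < n) : 0 < z4G q n := by
  obtain ⟨m, rfl⟩ := Nat.exists_eq_succ_of_ne_zero hn.ne'
  rw [z4G_succ']
  have h1 : 0 ≤ z4G q m := Finset.sum_nonneg fun i _ => by positivity
  have h2 : (0 : ℤ) ≤ (q : ℤ) ^ m := by positivity
  by_cases hm : m = 0
  · subst hm
    simp [z4G_zero]
  · have hq : 0 < z4G q m ∨ 0 < (q : ℤ) ^ m := by
      left
      obtain ⟨j, rfl⟩ := Nat.exists_eq_succ_of_ne_zero hm
      rw [z4G_succ]
      have : 0 ≤ (q : ℤ) * z4G q j :=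
        mul_nonneg (by positivity) (Finset.sum_nonneg fun i _ => by positivity)
      linarith
    rcases hq with h | h <;> linarith

/-- **the number of invariant effective divisors in an invariant class** (seat Z3b) -/
theorem card_z4Fib (hRR : IsRRField k F) (S : FrobStr k F) [IsAlgClosed k] (d : ℕ)
    {x : Pic0 k F} (hx : x ∈ fixedPow S.sigmaEnd 1) :
    (Nat.card (z4Fib S d x) : ℤ) = z4G S.q (ell (z4D S x d)) := by
  have hD₀ : S.σ • z4D S x d - z4D S x d ∈ Divisor.principal (K := k) (F := F) := by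
    apply z4_smul_sub_mem hRR
    rw [z4_cls_z4D hRR]
    exact hx
  have h := card_effInv_class hRR S (z4D S x d) hD₀
  have hq := S.one_lt_q
  have h1 : ((Nat.card (z4Fib S d x) * (S.q - 1) : ℕ) : ℤ)
      = ((S.q ^ ell (z4D S x d) - 1 : ℕ) : ℤ) := by
    exact_mod_cast h
  rw [Nat.cast_mul, Nat.cast_sub hq.le, Nat.cast_sub (Nat.one_le_pow _ _ (by omega)),
    Nat.cast_pow, Nat.cast_one, ← z4G_mul] at h1
  have hne : ((S.q : ℤ) - 1) ≠ 0 := by
    have : (1 : ℤ) < S.q := by exact_mod_cast hq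
    omega
  exact mul_right_cancel₀ hne h1

end Fermat.Agent.S27
end
end MergeWrap_S27_Zeta_Rat_Classes

section MergeWrap_S27_Zeta_Rat_Sums -- from S27/Zeta/Rat/Sums.lean

set_option autoImplicit false

/-!
# S27, part D, seat Z4 (RAT), part 2: finiteness of `J₁` and the class sums

* `finite_fixed_one'` : `J₁` is finite;
* `z4J S hRR` : `J₁` as a `Finset`, `z4A S hRR d` : `effInv d` as a `Finset`;
* `z4_sum_cls` : `Σ_{E ∈ effInv d} φ (cls E) = Σ_{x ∈ J₁} #(fibre) • φ x`;
* `z4_aCoef_eq` : `a_d = Σ_{x ∈ J₁} z4G q (ℓ (z4D S x d))`;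
* `z4_ell_stable` : `ℓ (z4D S x d) = d + 1 - g` for `2 g ≤ d + 1`;
* `z4_aCoef_stable` : `a_d = h z4G q (d + 1 - g)` for `2 g ≤ d + 1`.
-/

noncomputable section

open AlgebraicCurve

namespace Fermat.Agent.S27

open Fermat.Agent.RR

variable {k F : Type*} [Field k] [Field F] [Algebra k F]

/-- Riemann's inequality for `z4D` -/
theorem z4_le_ell (hRR : IsRRField k F) (S : FrobStr k F) (x : Pic0 k F) (d : ℕ) :
    (d : ℤ) + 1 - genusFF k F ≤ ell (z4D S x d) := by
  obtain ⟨W, hW⟩ := riemann_roch hRR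
  have := hW (z4D S x d)
  rw [z4D_degree hRR] at this
  have h0 : (0 : ℤ) ≤ ell (W - z4D S x d) := by positivity
  linarith

/-- the stable range -/
theorem z4_ell_stable (hRR : IsRRField k F) (S : FrobStr k F) (x : Pic0 k F) (d : ℕ)
    (hd : 2 * genusFF k F ≤ d + 1) : ell (z4D S x d) = d + 1 - genusFF k F := by
  have h := ell_of_degree_gt hRR (D := z4D S x d) (by
    rw [z4D_degree hRR]
    have : (2 * genusFF k F : ℤ) ≤ (d : ℤ) + 1 := by exact_mod_cast hd
    linarith)
  rw [z4D_degree hRR] at h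
  have : (ell (z4D S x d) : ℤ) = ((d + 1 - genusFF k F : ℕ) : ℤ) := by
    rw [h, Nat.cast_sub (by omega)]
    push_cast
    ring
  exact_mod_cast this

/-- every invariant class of degree `≥ g` contains an invariant effective divisor -/
theorem z4Fib_nonempty (hRR : IsRRField k F) (S : FrobStr k F) [IsAlgClosed k] (d : ℕ)
    (hd : genusFF k F ≤ d) {x : Pic0 k F} (hx : x ∈ fixedPow S.sigmaEnd 1) :
    (z4Fib S d x).Nonempty := by
  have h1 := card_z4Fib hRR S d hx
  have h2 := z4_le_ell hRR S x d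
  have h3 : 0 < ell (z4D S x d) := by
    have : (genusFF k F : ℤ) ≤ d := by exact_mod_cast hd
    have : (0 : ℤ) < ell (z4D S x d) := by linarith
    exact_mod_cast this
  have h4 := z4G_pos S.q _ h3
  rw [← h1] at h4
  have h5 : Nat.card (z4Fib S d x) ≠ 0 := by
    intro h
    rw [h] at h4
    simp at h4
  obtain ⟨⟨E, hE⟩⟩ := (Nat.card_ne_zero.mp h5).1
  exact ⟨E, hE⟩

/-- **Seat Z4.** `J₁` is finite -/
theorem finite_fixed_one' (hRR : IsRRField k F) (S : FrobStr k F) [IsAlgClosed k] :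
    (fixedPow S.sigmaEnd 1 : Set (Pic0 k F)).Finite := by
  refine ((effInv_finite hRR S (genusFF k F)).image S.cls).subset ?_
  intro x hx
  obtain ⟨E, hE⟩ := z4Fib_nonempty hRR S (genusFF k F) le_rfl hx
  obtain ⟨h1, h2⟩ := (mem_z4Fib_iff hRR S _ x E).mp hE
  exact ⟨E, h1, h2⟩

/-- `J₁` as a `Finset` -/
def z4J (hRR : IsRRField k F) (S : FrobStr k F) [IsAlgClosed k] : Finset (Pic0 k F) :=
  (finite_fixed_one' hRR S).toFinset

theorem mem_z4J (hRR : IsRRField k F) (S : FrobStr k F) [IsAlgClosed k] (x : Pic0 k F) :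
    x ∈ z4J hRR S ↔ x ∈ fixedPow S.sigmaEnd 1 := by
  unfold z4J
  rw [Set.Finite.mem_toFinset]
  rfl

theorem card_z4J (hRR : IsRRField k F) (S : FrobStr k F) [IsAlgClosed k] :
    (z4J hRR S).card = Nat.card (fixedPow S.sigmaEnd 1) := by
  unfold z4J
  rw [← Set.ncard_eq_toFinset_card _ (finite_fixed_one' hRR S)]
  exact (Nat.card_coe_set_eq _).symm

/-- `effInv d` as a `Finset` -/
def z4A (hRR : IsRRField k F) (S : FrobStr k F) (d : ℕ) : Finset (Divisor k F) :=
  (effInv_finite hRR S d).toFinset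

theorem mem_z4A (hRR : IsRRField k F) (S : FrobStr k F) (d : ℕ) (E : Divisor k F) :
    E ∈ z4A hRR S d ↔ E ∈ S.effInv d := by
  unfold z4A
  rw [Set.Finite.mem_toFinset]

theorem card_z4A (hRR : IsRRField k F) (S : FrobStr k F) (d : ℕ) :
    (z4A hRR S d).card = S.aCoef d := by
  unfold z4A FrobStr.aCoef
  rw [← Set.ncard_eq_toFinset_card _ (effInv_finite hRR S d)]
  exact (Nat.card_coe_set_eq _).symm

open Classical in
theorem card_filter_z4A (hRR : IsRRField k F) (S : FrobStr k F) (d : ℕ) (x : Pic0 k F) :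
    ((z4A hRR S d).filter fun E => S.cls E = x).card = Nat.card (z4Fib S d x) := by
  rw [Nat.card_coe_set_eq, ← Set.ncard_coe_finset]
  congr 1
  ext E
  rw [Finset.coe_filter, Set.mem_setOf_eq, mem_z4A, mem_z4Fib_iff hRR]

/-- **class sums** -/
theorem z4_sum_cls (hRR : IsRRField k F) (S : FrobStr k F) [IsAlgClosed k] (d : ℕ)
    {M : Type*} [AddCommMonoid M] (φ : Pic0 k F → M) :
    ∑ E ∈ z4A hRR S d, φ (S.cls E)
      = ∑ x ∈ z4J hRR S, Nat.card (z4Fib S d x) • φ x := by
  classical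
  have hmaps : ∀ E ∈ z4A hRR S d, S.cls E ∈ z4J hRR S := by
    intro E hE
    rw [mem_z4A] at hE
    rw [mem_z4J]
    exact z4_cls_mem_fixed hRR S hE.2.2
  rw [← Finset.sum_fiberwise_of_maps_to hmaps]
  refine Finset.sum_congr rfl fun x _ => ?_
  rw [← card_filter_z4A hRR S d x, ← Finset.sum_const]
  refine Finset.sum_congr rfl fun E hE => ?_
  rw [(Finset.mem_filter.mp hE).2]

/-- `a_d` as a class sum -/
theorem z4_aCoef_eq (hRR : IsRRField k F) (S : FrobStr k F) [IsAlgClosed k] (d : ℕ) :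
    (S.aCoef d : ℤ) = ∑ x ∈ z4J hRR S, z4G S.q (ell (z4D S x d)) := by
  have h := z4_sum_cls hRR S d (M := ℤ) (fun _ => 1)
  rw [Finset.sum_const, card_z4A, nsmul_eq_mul, mul_one] at h
  rw [h]
  refine Finset.sum_congr rfl fun x hx => ?_
  rw [nsmul_eq_mul, mul_one]
  exact card_z4Fib hRR S d ((mem_z4J hRR S x).mp hx)

/-- `a_d` in the stable range -/
theorem z4_aCoef_stable (hRR : IsRRField k F) (S : FrobStr k F) [IsAlgClosed k] (d : ℕ)
    (hd : 2 * genusFF k F ≤ d + 1) :
    (S.aCoef d : ℤ)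
      = Nat.card (fixedPow S.sigmaEnd 1) * z4G S.q (d + 1 - genusFF k F) := by
  rw [z4_aCoef_eq hRR S d, ← card_z4J hRR S, ← nsmul_eq_mul, ← Finset.sum_const]
  refine Finset.sum_congr rfl fun x _ => ?_
  rw [z4_ell_stable hRR S x d hd]

/-- `L`-coefficients as class sums -/
theorem z4_Lcoef_eq (hRR : IsRRField k F) (S : FrobStr k F) [IsAlgClosed k] (d : ℕ)
    (χ : Pic0 k F → ℂ) :
    S.Lcoef χ d = ∑ x ∈ z4J hRR S, (z4G S.q (ell (z4D S x d)) : ℂ) * χ x := by
  unfold FrobStr.Lcoef
  rw [finsum_mem_eq_finite_toFinset_sum _ (effInv_finite hRR S d)]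
  have h := z4_sum_cls hRR S d χ
  unfold z4A at h
  rw [h]
  refine Finset.sum_congr rfl fun x hx => ?_
  rw [nsmul_eq_mul]
  congr 1
  have := card_z4Fib hRR S d ((mem_z4J hRR S x).mp hx)
  exact_mod_cast congrArg (Int.cast : ℤ → ℂ) this

end Fermat.Agent.S27
end
end MergeWrap_S27_Zeta_Rat_Sums

section MergeWrap_S27_Zeta_Rat_Canon -- from S27/Zeta/Rat/Canon.lean

set_option autoImplicit false

/-!
# S27, part D, seat Z4 (RAT), part 3: the canonical class, `a_0`, `a_{2g-2}`

* `z4_aCoef_zero` : `a_0 = 1`;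
* `z4_exists_canonical` : for `g ≥ 1` there is `x_W ∈ J₁` with
  `ℓ (z4D S x (2g-2)) = g` for `x = x_W` and `= g - 1` otherwise;
* `z4_aCoef_canon` : `a_{2g-2} = h z4G q (g-1) + q^(g-1)` for `g ≥ 1`.
-/

noncomputable section

open AlgebraicCurve

namespace Fermat.Agent.S27

open Fermat.Agent.RR

variable {k F : Type*} [Field k] [Field F] [Algebra k F]

/-- `a_0 = 1` -/
theorem z4_aCoef_zero (hRR : IsRRField k F) (S : FrobStr k F) : S.aCoef 0 = 1 := by
  have h : S.effInv 0 = {0} := by
    ext E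
    constructor
    · rintro ⟨h0, hdeg, -⟩
      exact eq_zero_of_nonneg_of_degree_eq_zero hRR h0 (by simpa using hdeg)
    · intro hE
      rw [Set.mem_singleton_iff] at hE
      subst hE
      exact ⟨le_rfl, by simp, smul_zero _⟩
  unfold FrobStr.aCoef
  rw [h, Nat.card_coe_set_eq, Set.ncard_singleton]

/-- equality of `cls` for divisors of the same degree -/
theorem z4_cls_eq_cls_iff (hRR : IsRRField k F) (S : FrobStr k F) {D E : Divisor k F}
    (h : Divisor.degree D = Divisor.degree E) :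
    S.cls D = S.cls E ↔ D - E ∈ Divisor.principal (K := k) (F := F) := by
  rw [z4_cls_eq hRR, z4_cls_eq hRR, z4_mk_eq_mk_iff]
  have : (D - Divisor.degree D • Finsupp.single S.P₀ (1 : ℤ))
      - (E - Divisor.degree E • Finsupp.single S.P₀ (1 : ℤ)) = D - E := by
    rw [h]
    abel
  show (D - Divisor.degree D • Finsupp.single S.P₀ (1 : ℤ))
      - (E - Divisor.degree E • Finsupp.single S.P₀ (1 : ℤ)) ∈ _ ↔ _
  rw [this]

open Classical in
/-- **the canonical class** is `σ`-invariant and is the only class of degree `2g - 2` with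
`ℓ = g` -/
theorem z4_exists_canonical (hRR : IsRRField k F) (S : FrobStr k F)
    (hg : 1 ≤ genusFF k F) :
    ∃ xW ∈ fixedPow S.sigmaEnd 1, ∀ x : Pic0 k F,
      ell (z4D S x (2 * genusFF k F - 2))
        = if x = xW then genusFF k F else genusFF k F - 1 := by
  obtain ⟨W, hW⟩ := riemann_roch hRR
  obtain ⟨hdeg, hell⟩ := canonical_degree hRR hW
  have hdegN : Divisor.degree W = ((2 * genusFF k F - 2 : ℕ) : ℤ) := by
    rw [hdeg, Nat.cast_sub (by omega)]
    push_cast
    ring
  refine ⟨S.cls W, ?_, fun x => ?_⟩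
  · -- invariance
    rw [z4_mem_fixed_iff, z4_smul_cls hRR,
      z4_cls_eq_cls_iff hRR S (SemilinearAut.degree_smul S.σ W)]
    have h1 := hW (S.σ • W)
    rw [z4_ell_smul, SemilinearAut.degree_smul, hell, hdeg] at h1
    have h2 : ell (W - S.σ • W) = 1 := by
      have : (ell (W - S.σ • W) : ℤ) = 1 := by linarith
      exact_mod_cast this
    have h3 : Divisor.degree (W - S.σ • W) = 0 := by
      rw [map_sub, SemilinearAut.degree_smul, sub_self]
    rw [z4_ell_degZero hRR h3] at h2
    have h4 : W - S.σ • W ∈ Divisor.principal (K := k) (F := F) := by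
      by_contra hne
      rw [if_neg hne] at h2
      exact zero_ne_one h2
    have h5 : S.σ • W - W = -(W - S.σ • W) := by abel
    rw [h5]
    exact neg_mem h4
  · have h1 := hW (z4D S x (2 * genusFF k F - 2))
    rw [z4D_degree hRR] at h1
    have h3 : Divisor.degree (W - z4D S x (2 * genusFF k F - 2)) = 0 := by
      rw [map_sub, z4D_degree hRR, hdegN, sub_self]
    have h4 : (W - z4D S x (2 * genusFF k F - 2) ∈ Divisor.principal (K := k) (F := F))
        ↔ x = S.cls W := by
      rw [← z4_cls_eq_iff hRR S x _ hdegN]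
      exact eq_comm
    rw [z4_ell_degZero hRR h3] at h1
    have hc : ((2 * genusFF k F - 2 : ℕ) : ℤ) = 2 * (genusFF k F : ℤ) - 2 := by
      rw [Nat.cast_sub (by omega)]
      push_cast
      ring
    rw [hc] at h1
    by_cases hx : x = S.cls W
    · rw [if_pos hx]
      rw [if_pos (h4.mpr hx)] at h1
      have : (ell (z4D S x (2 * genusFF k F - 2)) : ℤ) = genusFF k F := by
        rw [h1]
        push_cast
        ring
      exact_mod_cast this
    · rw [if_neg hx]
      rw [if_neg (fun h => hx (h4.mp h))] at h1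
      have : (ell (z4D S x (2 * genusFF k F - 2)) : ℤ) = ((genusFF k F - 1 : ℕ) : ℤ) := by
        rw [h1, Nat.cast_sub hg]
        push_cast
        ring
      exact_mod_cast this

/-- `a_{2g-2}` -/
theorem z4_aCoef_canon (hRR : IsRRField k F) (S : FrobStr k F) [IsAlgClosed k]
    (hg : 1 ≤ genusFF k F) :
    (S.aCoef (2 * genusFF k F - 2) : ℤ)
      = Nat.card (fixedPow S.sigmaEnd 1) * z4G S.q (genusFF k F - 1)
        + (S.q : ℤ) ^ (genusFF k F - 1) := by
  classical
  obtain ⟨xW, hxW, hx⟩ := z4_exists_canonical hRR S hg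
  rw [z4_aCoef_eq hRR S]
  have h1 : ∀ x ∈ z4J hRR S, z4G S.q (ell (z4D S x (2 * genusFF k F - 2)))
      = z4G S.q (genusFF k F - 1) + if x = xW then (S.q : ℤ) ^ (genusFF k F - 1) else 0 := by
    intro x _
    rw [hx x]
    by_cases h : x = xW
    · rw [if_pos h, if_pos h]
      obtain ⟨j, hj⟩ := Nat.exists_eq_add_of_le hg
      rw [hj, add_comm 1 j, Nat.add_sub_cancel, z4G_succ']
    · rw [if_neg h, if_neg h, add_zero]
  rw [Finset.sum_congr rfl h1, Finset.sum_add_distrib, Finset.sum_const, nsmul_eq_mul,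
    card_z4J, Finset.sum_ite_eq', if_pos ((mem_z4J hRR S xW).mpr hxW)]

end Fermat.Agent.S27
end
end MergeWrap_S27_Zeta_Rat_Canon

section MergeWrap_S27_Zeta_Rat_Poly -- from S27/Zeta/Rat/Poly.lean

set_option autoImplicit false

/-!
# S27, part D, seat Z4 (RAT), part 4: `(1 - t)(1 - q t) Z(t)` is a polynomial

Pure power-series algebra (`z4_coeff_Y_*`, `z4_sum_coeff_Y`) and the proof of `zeta_rational'`.
-/

noncomputable section

open AlgebraicCurve PowerSeries

namespace Fermat.Agent.S27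

open Fermat.Agent.RR

theorem z4_Y_eq (c : ℤ) (Z : ℤ⟦X⟧) :
    (1 - (X : ℤ⟦X⟧)) * (1 - C c * X) * Z
      = Z - C c * (X * Z) - X * Z + C c * (X * (X * Z)) := by
  ring

theorem z4_coeff_Y_add_two (c : ℤ) (a : ℕ → ℤ) (n : ℕ) :
    PowerSeries.coeff (n+2) ((1 - (X : ℤ⟦X⟧)) * (1 - C c * X) * PowerSeries.mk a)
      = a (n+2) - (c+1) * a (n+1) + c * a n := by
  rw [z4_Y_eq]
  simp only [map_add, map_sub, PowerSeries.coeff_C_mul, PowerSeries.coeff_succ_X_mul,
    PowerSeries.coeff_mk]
  ring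

theorem z4_coeff_Y_one (c : ℤ) (a : ℕ → ℤ) :
    PowerSeries.coeff 1 ((1 - (X : ℤ⟦X⟧)) * (1 - C c * X) * PowerSeries.mk a)
      = a 1 - (c+1) * a 0 := by
  rw [z4_Y_eq]
  have h1 : PowerSeries.coeff 1 (X * PowerSeries.mk a) = a 0 := by
    rw [show (1 : ℕ) = 0 + 1 from rfl, PowerSeries.coeff_succ_X_mul, PowerSeries.coeff_mk]
  have h2 : PowerSeries.coeff 1 (X * (X * PowerSeries.mk a)) = 0 := by
    rw [show (1 : ℕ) = 0 + 1 from rfl, PowerSeries.coeff_succ_X_mul, PowerSeries.coeff_zero_X_mul]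
  simp only [map_add, map_sub, PowerSeries.coeff_C_mul, h1, h2, PowerSeries.coeff_mk]
  ring

theorem z4_coeff_Y_zero (c : ℤ) (a : ℕ → ℤ) :
    PowerSeries.coeff 0 ((1 - (X : ℤ⟦X⟧)) * (1 - C c * X) * PowerSeries.mk a) = a 0 := by
  rw [z4_Y_eq]
  simp only [map_add, map_sub, PowerSeries.coeff_C_mul, PowerSeries.coeff_zero_X_mul,
    PowerSeries.coeff_mk]
  ring

theorem z4_sum_coeff_Y (c : ℤ) (a : ℕ → ℤ) (D : ℕ) :
    ∑ i ∈ Finset.range (D + 2),
        PowerSeries.coeff i ((1 - (X : ℤ⟦X⟧)) * (1 - C c * X) * PowerSeries.mk a)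
      = a (D + 1) - c * a D := by
  induction D with
  | zero =>
    rw [Finset.sum_range_succ, Finset.sum_range_one, z4_coeff_Y_zero, z4_coeff_Y_one]
    ring
  | succ D ih =>
    rw [Finset.sum_range_succ, ih, z4_coeff_Y_add_two]
    ring

/-- the recursion of the geometric sums -/
theorem z4G_rec (q j : ℕ) :
    z4G q (j + 2) - ((q : ℤ) + 1) * z4G q (j + 1) + (q : ℤ) * z4G q j = 0 := by
  rw [z4G_succ q (j + 1), z4G_succ q j]
  ring

variable {k F : Type*} [Field k] [Field F] [Algebra k F]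

/-- the coefficients of `(1 - t)(1 - q t) Z` vanish beyond `2g` -/
theorem z4_coeff_eq_zero (hRR : IsRRField k F) (S : FrobStr k F) [IsAlgClosed k] (n : ℕ)
    (hn : 2 * genusFF k F < n) :
    PowerSeries.coeff n ((1 - (X : ℤ⟦X⟧)) * (1 - C (S.q : ℤ) * X) * S.zeta) = 0 := by
  unfold FrobStr.zeta
  rcases n with _ | _ | m
  · omega
  · have hg : genusFF k F = 0 := by omega
    rw [z4_coeff_Y_one, z4_aCoef_stable hRR S 1 (by omega), z4_aCoef_stable hRR S 0 (by omega),
      hg]
    have h1 : z4G S.q (1 + 1 - 0) = (S.q : ℤ) + 1 := by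
      rw [show 1 + 1 - 0 = 0 + 1 + 1 from rfl, z4G_succ, z4G_succ, z4G_zero]
      ring
    have h2 : z4G S.q (0 + 1 - 0) = 1 := by
      rw [show 0 + 1 - 0 = 0 + 1 from rfl, z4G_succ, z4G_zero]
      ring
    rw [h1, h2]
    ring
  · rw [z4_coeff_Y_add_two, z4_aCoef_stable hRR S (m + 2) (by omega),
      z4_aCoef_stable hRR S (m + 1) (by omega), z4_aCoef_stable hRR S m (by omega)]
    obtain ⟨j, hj⟩ : ∃ j, m + 1 - genusFF k F = j := ⟨_, rfl⟩
    have e1 : m + 2 + 1 - genusFF k F = j + 2 := by omega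
    have e2 : m + 1 + 1 - genusFF k F = j + 1 := by omega
    rw [e1, e2, hj]
    have := z4G_rec S.q j
    linear_combination (Nat.card (fixedPow S.sigmaEnd 1) : ℤ) * this

/-- the coefficient of `t^(2g)` -/
theorem z4_coeff_top (hRR : IsRRField k F) (S : FrobStr k F) [IsAlgClosed k] :
    PowerSeries.coeff (2 * genusFF k F)
        ((1 - (X : ℤ⟦X⟧)) * (1 - C (S.q : ℤ) * X) * S.zeta) = (S.q : ℤ) ^ genusFF k F := by
  unfold FrobStr.zeta
  rcases Nat.eq_zero_or_pos (genusFF k F) with hg | hg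
  · rw [hg, mul_zero, z4_coeff_Y_zero, z4_aCoef_zero hRR S, pow_zero, Nat.cast_one]
  · obtain ⟨j, hj⟩ := Nat.exists_eq_add_of_le hg
    have e0 : 2 * genusFF k F = (2 * genusFF k F - 2) + 2 := by omega
    rw [e0, z4_coeff_Y_add_two, z4_aCoef_stable hRR S (2 * genusFF k F - 2 + 2) (by omega),
      z4_aCoef_stable hRR S (2 * genusFF k F - 2 + 1) (by omega), z4_aCoef_canon hRR S hg]
    have e1 : 2 * genusFF k F - 2 + 2 + 1 - genusFF k F = j + 2 := by omega
    have e2 : 2 * genusFF k F - 2 + 1 + 1 - genusFF k F = j + 1 := by omega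
    have e3 : genusFF k F - 1 = j := by omega
    have e4 : (S.q : ℤ) ^ genusFF k F = (S.q : ℤ) * (S.q : ℤ) ^ j := by
      rw [hj, show Nat.succ 0 + j = j + 1 by omega, pow_succ]
      ring
    rw [e1, e2, e3, e4]
    have := z4G_rec S.q j
    linear_combination (Nat.card (fixedPow S.sigmaEnd 1) : ℤ) * this

/-- the sum of the coefficients up to `2g` -/
theorem z4_sum_coeff (hRR : IsRRField k F) (S : FrobStr k F) [IsAlgClosed k] :
    ∑ i ∈ Finset.range (2 * genusFF k F + 1),
        PowerSeries.coeff i ((1 - (X : ℤ⟦X⟧)) * (1 - C (S.q : ℤ) * X) * S.zeta)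
      = (Nat.card (fixedPow S.sigmaEnd 1) : ℤ) := by
  unfold FrobStr.zeta
  rcases Nat.eq_zero_or_pos (genusFF k F) with hg | hg
  · rw [hg, mul_zero, zero_add, Finset.sum_range_one, z4_coeff_Y_zero]
    have h := z4_aCoef_stable hRR S 0 (by omega)
    rw [hg] at h
    have h2 : z4G S.q (0 + 1 - 0) = 1 := by
      rw [show 0 + 1 - 0 = 0 + 1 from rfl, z4G_succ, z4G_zero]
      ring
    rw [h2, mul_one] at h
    exact h
  · obtain ⟨j, hj⟩ := Nat.exists_eq_add_of_le hg
    have e0 : 2 * genusFF k F + 1 = (2 * genusFF k F - 1) + 2 := by omega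
    rw [e0, z4_sum_coeff_Y, z4_aCoef_stable hRR S (2 * genusFF k F - 1 + 1) (by omega),
      z4_aCoef_stable hRR S (2 * genusFF k F - 1) (by omega)]
    have e1 : 2 * genusFF k F - 1 + 1 + 1 - genusFF k F = j + 1 + 1 := by omega
    have e2 : 2 * genusFF k F - 1 + 1 - genusFF k F = j + 1 := by omega
    rw [e1, e2, z4G_succ S.q (j + 1)]
    ring

/-- **Seat Z4.** `(1 - t)(1 - q t) Z(t) = P(t)`, `deg P = 2g`, `P(0) = 1`, `P(1) = h`,
leading coefficient `q^g` -/
theorem zeta_rational' (hRR : IsRRField k F) (S : FrobStr k F) [IsAlgClosed k] :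
    ∃ P : Polynomial ℤ, P.natDegree = 2 * genusFF k F ∧ P.coeff 0 = 1 ∧
      P.leadingCoeff = (S.q : ℤ) ^ genusFF k F ∧
      P.eval 1 = (Nat.card (fixedPow S.sigmaEnd 1) : ℤ) ∧
      (1 - (X : ℤ⟦X⟧)) * (1 - C (S.q : ℤ) * X) * S.zeta = (P : ℤ⟦X⟧) := by
  set Y : ℤ⟦X⟧ := (1 - (X : ℤ⟦X⟧)) * (1 - C (S.q : ℤ) * X) * S.zeta with hY
  set P : Polynomial ℤ := PowerSeries.trunc (2 * genusFF k F + 1) Y with hP
  have hcoeff : ∀ n, n < 2 * genusFF k F + 1 → P.coeff n = PowerSeries.coeff n Y := by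
    intro n hn
    rw [hP, PowerSeries.coeff_trunc, if_pos hn]
  have hlt : P.natDegree < 2 * genusFF k F + 1 := PowerSeries.natDegree_trunc_lt Y _
  have hq : (S.q : ℤ) ^ genusFF k F ≠ 0 := by
    have := S.one_lt_q
    positivity
  have htop : P.coeff (2 * genusFF k F) = (S.q : ℤ) ^ genusFF k F := by
    rw [hcoeff _ (by omega), hY, z4_coeff_top hRR S]
  have hdeg : P.natDegree = 2 * genusFF k F := by
    have h1 : 2 * genusFF k F ≤ P.natDegree :=
      Polynomial.le_natDegree_of_ne_zero (by rw [htop]; exact hq)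
    omega
  refine ⟨P, hdeg, ?_, ?_, ?_, ?_⟩
  · rw [hcoeff 0 (by omega), hY]
    unfold FrobStr.zeta
    rw [z4_coeff_Y_zero, z4_aCoef_zero hRR S, Nat.cast_one]
  · rw [Polynomial.leadingCoeff, hdeg, htop]
  · rw [Polynomial.eval_eq_sum_range' hlt]
    rw [← z4_sum_coeff hRR S]
    refine Finset.sum_congr rfl fun i hi => ?_
    rw [one_pow, mul_one, hcoeff i (Finset.mem_range.mp hi)]
  · ext n
    rw [Polynomial.coeff_coe]
    by_cases hn : n < 2 * genusFF k F + 1
    · rw [hcoeff n hn]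
    · rw [hP, PowerSeries.coeff_trunc, if_neg hn, hY, z4_coeff_eq_zero hRR S n (by omega)]

end Fermat.Agent.S27
end
end MergeWrap_S27_Zeta_Rat_Poly

section MergeWrap_S27_Zeta_LserPoly -- from S27/Zeta/LserPoly.lean

set_option autoImplicit false
set_option linter.style.haveILetI false
set_option linter.unusedSectionVars false

/-!
# S27, part D, seat Z4 (RAT), third statement: `L(χ, t)` is a polynomial  (helper27)

`lser_polynomial_of_finite`: for a character `χ ≠ 1` of the finite group `J₁` the series `L(χ, t)`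
is a polynomial (of degree `< 2g`).

For `d > 2g - 2` and `x ∈ J₁` the invariant effective divisors `E` of degree `d` with `cls E = x`
are the invariant effective divisors linearly equivalent to `D₀ = D_x + d P₀` (`x = [D_x]`), and
`ℓ(D₀) = d + 1 - g`; by seat Z3b their number `c` satisfies `c (q - 1) = q^(d+1-g) - 1`, the same
for all `x`.  So `Lcoef χ d = c Σ_{x ∈ J₁} χ(x) = 0` (orthogonality).
-/

noncomputable section

open AlgebraicCurve PowerSeries

namespace Fermat.Agent.S27

open Fermat.Agent.RR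

variable {k F : Type*} [Field k] [Field F] [Algebra k F]

/-! ### classes -/

theorem lp_degree_sub (hRR : IsRRField k F) (S : FrobStr k F) (D : Divisor k F) :
    Divisor.degree (D - Divisor.degree D • Finsupp.single S.P₀ (1 : ℤ)) = 0 := by
  rw [map_sub, map_zsmul, Divisor.degree_single, hRR.deg_one]
  simp

theorem lp_cls_eq (hRR : IsRRField k F) (S : FrobStr k F) (D : Divisor k F) :
    S.cls D = Pic0.mk ⟨D - Divisor.degree D • Finsupp.single S.P₀ (1 : ℤ),
      lp_degree_sub hRR S D⟩ := by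
  unfold FrobStr.cls
  rw [dif_pos (lp_degree_sub hRR S D)]

theorem lp_smul_cls (hRR : IsRRField k F) (S : FrobStr k F) (D : Divisor k F) :
    S.σ • S.cls D = S.cls (S.σ • D) := by
  rw [lp_cls_eq hRR, lp_cls_eq hRR, SemilinearAut.pic0_smul_mk]
  congr 1
  apply Subtype.ext
  rw [SemilinearAut.coe_degZeroSMulHom]
  show S.σ • (D - Divisor.degree D • Finsupp.single S.P₀ (1 : ℤ)) =
    S.σ • D - Divisor.degree (S.σ • D) • Finsupp.single S.P₀ (1 : ℤ)
  rw [smul_sub, SemilinearAut.degree_smul]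
  congr 1
  have h := map_zsmul (DistribSMul.toAddMonoidHom (Divisor k F) S.σ)
    (Divisor.degree D) (Finsupp.single S.P₀ (1 : ℤ))
  have h2 : S.σ • (Divisor.degree D • Finsupp.single S.P₀ (1 : ℤ) : Divisor k F) =
      Divisor.degree D • (S.σ • (Finsupp.single S.P₀ (1 : ℤ) : Divisor k F)) := h
  rw [h2, SemilinearAut.smul_single, S.fixed]

/-- the class of an invariant divisor is invariant. -/
theorem lp_cls_mem (hRR : IsRRField k F) (S : FrobStr k F) {D : Divisor k F}
    (hD : S.σ • D = D) : S.cls D ∈ fixedPow S.sigmaEnd 1 := by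
  rw [mem_fixedPow, pow_one, S.sigmaEnd_apply, lp_smul_cls hRR, hD]

/-- a principal divisor has degree `0`. -/
theorem lp_degree_of_principal (hRR : IsRRField k F) {D : Divisor k F}
    (hD : D ∈ Divisor.principal (K := k) (F := F)) : Divisor.degree D = 0 := by
  obtain ⟨f, hf, hDf⟩ := hD
  obtain ⟨D', hD', hdeg⟩ := hRR.principal f hf
  have : D = D' := by
    ext v
    rw [hDf, hD']
  rw [this, hdeg]

/-- equality of classes is linear equivalence. -/
theorem lp_mk_eq_mk_iff (D E : Divisor.degZero (K := k) (F := F)) :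
    Pic0.mk D = Pic0.mk E ↔
      (D : Divisor k F) - (E : Divisor k F) ∈ Divisor.principal (K := k) (F := F) := by
  unfold Pic0.mk
  rw [QuotientAddGroup.eq, AddSubgroup.mem_addSubgroupOf]
  have h1 : ((-D + E : Divisor.degZero (K := k) (F := F)) : Divisor k F) =
      -((D : Divisor k F) - (E : Divisor k F)) := by
    push_cast
    abel
  rw [h1, neg_mem_iff]

/-! ### the fibres of `cls` -/

/-- the invariant effective divisors of degree `d` in the class `x`, `d > 2g - 2`. -/
theorem lp_fibre_card (hRR : IsRRField k F) (S : FrobStr k F) [IsAlgClosed k] (d : ℕ)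
    (hd : 2 * (genusFF k F : ℤ) - 2 < (d : ℤ)) {x : Pic0 k F}
    (hx : x ∈ fixedPow S.sigmaEnd 1) :
    Nat.card {E : Divisor k F // E ∈ S.effInv d ∧ S.cls E = x} * (S.q - 1) =
      S.q ^ (d + 1 - genusFF k F) - 1 := by
  obtain ⟨⟨Dx, hDx⟩, rfl⟩ := Pic0.mk_surjective x
  have hDx0 : Divisor.degree Dx = 0 := hDx
  set D₀ : Divisor k F := Dx + (d : ℤ) • Finsupp.single S.P₀ (1 : ℤ) with hD₀
  have hdeg₀ : Divisor.degree D₀ = (d : ℤ) := by
    rw [hD₀, map_add, map_zsmul, Divisor.degree_single, hRR.deg_one, hDx0]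
    simp
  -- the class of `D₀` is invariant
  have hσP : S.σ • ((d : ℤ) • Finsupp.single S.P₀ (1 : ℤ) : Divisor k F) =
      (d : ℤ) • Finsupp.single S.P₀ (1 : ℤ) := by
    have h := map_zsmul (DistribSMul.toAddMonoidHom (Divisor k F) S.σ)
      (d : ℤ) (Finsupp.single S.P₀ (1 : ℤ))
    have h2 : S.σ • ((d : ℤ) • Finsupp.single S.P₀ (1 : ℤ) : Divisor k F) =
        (d : ℤ) • (S.σ • (Finsupp.single S.P₀ (1 : ℤ) : Divisor k F)) := h
    rw [h2, SemilinearAut.smul_single, S.fixed]
  have hinv : S.σ • D₀ - D₀ ∈ Divisor.principal (K := k) (F := F) := by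
    rw [mem_fixedPow, pow_one, S.sigmaEnd_apply, SemilinearAut.pic0_smul_mk,
      lp_mk_eq_mk_iff] at hx
    have h1 : S.σ • D₀ - D₀ = S.σ • Dx - Dx := by
      rw [hD₀, smul_add, hσP]
      abel
    rw [h1]
    exact hx
  have hcard := card_effInv_class hRR S D₀ hinv
  -- `ℓ(D₀) = d + 1 - g`
  have hell : ell D₀ = d + 1 - genusFF k F := by
    have h1 := ell_of_degree_gt hRR (D := D₀) (by rw [hdeg₀]; exact hd)
    rw [hdeg₀] at h1
    omega
  rw [hell] at hcard
  rw [← hcard]
  congr 1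
  apply Nat.card_congr
  refine Equiv.subtypeEquivRight fun E => ?_
  have hclsE : ∀ E : Divisor k F, Divisor.degree E = (d : ℤ) →
      (S.cls E = Pic0.mk ⟨Dx, hDx⟩ ↔ E - D₀ ∈ Divisor.principal (K := k) (F := F)) := by
    intro E hE
    rw [lp_cls_eq hRR, lp_mk_eq_mk_iff]
    have h1 : E - Divisor.degree E • Finsupp.single S.P₀ (1 : ℤ) - Dx = E - D₀ := by
      rw [hD₀, hE]
      abel
    show E - Divisor.degree E • Finsupp.single S.P₀ (1 : ℤ) - Dx ∈ _ ↔ _
    rw [h1]
  constructor
  · rintro ⟨⟨h1, h2, h3⟩, h4⟩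
    exact ⟨h1, (hclsE E h2).mp h4, h3⟩
  · rintro ⟨h1, h2, h3⟩
    have hE : Divisor.degree E = (d : ℤ) := by
      have := lp_degree_of_principal hRR h2
      rw [map_sub, hdeg₀] at this
      linarith
    exact ⟨⟨h1, hE, h3⟩, (hclsE E hE).mpr h2⟩

/-! ### orthogonality -/

theorem lp_sum_char_eq_zero {J : Type*} [AddCommGroup J] (J₁ : AddSubgroup J)
    (hfin : (J₁ : Set J).Finite) (χ : J → ℂ)
    (hadd : ∀ x ∈ J₁, ∀ y ∈ J₁, χ (x + y) = χ x * χ y) {x₁ : J} (hx₁ : x₁ ∈ J₁)
    (hne : χ x₁ ≠ 1) : ∑ x ∈ hfin.toFinset, χ x = 0 := by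
  have h1 : ∑ x ∈ hfin.toFinset, χ x = ∑ x ∈ hfin.toFinset, χ (x + x₁) := by
    refine (Finset.sum_bij (fun x _ => x + x₁) ?_ ?_ ?_ ?_).symm
    · intro x hx
      rw [Set.Finite.mem_toFinset] at hx ⊢
      exact J₁.add_mem hx hx₁
    · intro x _ y _ hxy
      exact add_right_cancel hxy
    · intro y hy
      rw [Set.Finite.mem_toFinset] at hy
      refine ⟨y - x₁, ?_, by abel⟩
      rw [Set.Finite.mem_toFinset]
      exact J₁.sub_mem hy hx₁
    · intro x _
      rfl
  have h2 : ∑ x ∈ hfin.toFinset, χ (x + x₁) = (∑ x ∈ hfin.toFinset, χ x) * χ x₁ := by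
    rw [Finset.sum_mul]
    refine Finset.sum_congr rfl fun x hx => ?_
    rw [Set.Finite.mem_toFinset] at hx
    exact hadd x hx x₁ hx₁
  rw [h2] at h1
  have h3 : (∑ x ∈ hfin.toFinset, χ x) * (1 - χ x₁) = 0 := by
    rw [mul_sub, mul_one, ← h1, sub_self]
  rcases mul_eq_zero.mp h3 with h | h
  · exact h
  · exact absurd (sub_eq_zero.mp h).symm hne

/-! ### the coefficients of `L(χ, t)` in high degree -/

theorem lp_Lcoef_eq_zero (hRR : IsRRField k F) (S : FrobStr k F) [IsAlgClosed k]
    (hfin : (fixedPow S.sigmaEnd 1 : Set (Pic0 k F)).Finite)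
    (χ : Pic0 k F → ℂ) (hχ : S.IsCharOn χ) (hne : ∃ x ∈ fixedPow S.sigmaEnd 1, χ x ≠ 1)
    (d : ℕ) (hd : 2 * (genusFF k F : ℤ) - 2 < (d : ℤ)) : S.Lcoef χ d = 0 := by
  classical
  obtain ⟨x₁, hx₁, hχx₁⟩ := hne
  have hT := effInv_finite hRR S d
  unfold FrobStr.Lcoef
  rw [finsum_mem_eq_finite_toFinset_sum _ hT]
  have hmaps : ∀ E ∈ hT.toFinset, S.cls E ∈ hfin.toFinset := by
    intro E hE
    rw [Set.Finite.mem_toFinset] at hE ⊢
    exact lp_cls_mem hRR S hE.2.2
  rw [← Finset.sum_fiberwise_of_maps_to hmaps]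
  -- the common cardinality of the fibres
  have hq1 : 0 < S.q - 1 := by
    have := S.one_lt_q
    omega
  set c : ℕ := (S.q ^ (d + 1 - genusFF k F) - 1) / (S.q - 1) with hc
  have hfib : ∀ x ∈ hfin.toFinset,
      ∑ E ∈ hT.toFinset with S.cls E = x, χ (S.cls E) = (c : ℂ) * χ x := by
    intro x hx
    rw [Set.Finite.mem_toFinset] at hx
    have h1 : ∑ E ∈ hT.toFinset with S.cls E = x, χ (S.cls E) =
        ∑ _E ∈ hT.toFinset with S.cls _E = x, χ x := by
      refine Finset.sum_congr rfl fun E hE => ?_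
      rw [(Finset.mem_filter.mp hE).2]
    rw [h1, Finset.sum_const, nsmul_eq_mul]
    congr 2
    have h2 := lp_fibre_card hRR S d hd hx
    have h3 : Nat.card {E : Divisor k F // E ∈ S.effInv d ∧ S.cls E = x} =
        (hT.toFinset.filter fun E => S.cls E = x).card := by
      rw [← Set.ncard_coe_finset, ← Nat.card_coe_set_eq]
      refine Nat.card_congr (Equiv.subtypeEquivRight fun E => ?_)
      rw [Finset.mem_coe, Finset.mem_filter, Set.Finite.mem_toFinset]
    rw [← h3, hc, ← h2, Nat.mul_div_cancel _ hq1]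
  rw [Finset.sum_congr rfl hfib, ← Finset.mul_sum,
    lp_sum_char_eq_zero (fixedPow S.sigmaEnd 1) hfin χ hχ.map_add hx₁ hχx₁, mul_zero]

/-- **Seat Z4, third statement.** `L(χ, t)` is a polynomial for a nontrivial character `χ` of the
finite group `J₁`. -/
theorem lser_polynomial_of_finite (hRR : IsRRField k F) (S : FrobStr k F) [IsAlgClosed k]
    (hfin : (fixedPow S.sigmaEnd 1 : Set (Pic0 k F)).Finite)
    (χ : Pic0 k F → ℂ) (hχ : S.IsCharOn χ) (hne : ∃ x ∈ fixedPow S.sigmaEnd 1, χ x ≠ 1) :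
    ∃ P : Polynomial ℂ, S.Lser χ = (P : ℂ⟦X⟧) := by
  refine ⟨PowerSeries.trunc (2 * genusFF k F) (S.Lser χ), ?_⟩
  ext d
  rw [Polynomial.coeff_coe, PowerSeries.coeff_trunc]
  split_ifs with h
  · rfl
  · unfold FrobStr.Lser
    rw [coeff_mk]
    apply lp_Lcoef_eq_zero hRR S hfin χ hχ hne d
    have : (2 * genusFF k F : ℤ) ≤ (d : ℤ) := by exact_mod_cast not_lt.mp h
    linarith

end Fermat.Agent.S27
end
end MergeWrap_S27_Zeta_LserPoly

section MergeWrap_S27_Zeta_Rational -- from S27/Zeta/Rational.lean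

set_option autoImplicit false

/-!
# S27, part D, seat Z4 (RAT): class sums, finiteness of `J₁`, rationality of `Z`, polynomial `L`

`h = #J₁`.  Every invariant class of degree `d` is `cls`-represented: `c ↦ c - d P₀` is a bijection
from the invariant classes of degree `d` to `J₁`, and by seat Z3b
  `a_d = Σ_{x ∈ J₁} (q ^ ℓ(x + d P₀) - 1) / (q - 1)`,   `Lcoef χ d = Σ_{x ∈ J₁} χ(x) (q ^ ℓ(x + d P₀) - 1) / (q - 1)`.
* `J₁` is finite: it is the image of `effInv g` under `cls` (`ℓ ≥ 1` in degree `g`), seat Z2.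
* `d ≥ 2g - 1`: `ℓ = d - g + 1`, so `a_d = h (q^(d-g+1) - 1)/(q - 1)` and `Lcoef χ d = 0` for `χ ≠ 1`
  (orthogonality): `L(χ, t)` is a polynomial.
* `P := (1 - t)(1 - q t) Z(t)` is a polynomial of degree `2g`: `P(0) = 1` (`ℓ(0) = 1`, `ℓ(x) = 0` for
  `x ≠ 0` of degree `0`), `P(1) = h`, leading coefficient `q^g` (in degree `2g - 2`: `ℓ(W) = g`,
  `ℓ(c) = g - 1` for `c ≠ W`; the canonical class is `σ`-invariant because it is the only class of
  degree `2g - 2` with `ℓ = g`, and `σ` preserves `deg` and `ℓ`).  No functional equation is needed.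

Proofs: `Zeta/Rat/{Classes,Sums,Canon,Poly}.lean` (helper99), `Zeta/LserPoly.lean` (helper27).
-/

noncomputable section

open AlgebraicCurve PowerSeries

namespace Fermat.Agent.S27

open Fermat.Agent.RR

variable {k F : Type*} [Field k] [Field F] [Algebra k F]

/-- **Seat Z4.** `J₁` is finite -/
theorem finite_fixed_one (hRR : IsRRField k F) (S : FrobStr k F) [IsAlgClosed k] :
    (fixedPow S.sigmaEnd 1 : Set (Pic0 k F)).Finite :=
  finite_fixed_one' hRR S

/-- **Seat Z4.** `(1 - t)(1 - q t) Z(t) = P(t)`, `deg P = 2g`, `P(0) = 1`, `P(1) = h`,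
leading coefficient `q^g` -/
theorem zeta_rational (hRR : IsRRField k F) (S : FrobStr k F) [IsAlgClosed k] :
    ∃ P : Polynomial ℤ, P.natDegree = 2 * genusFF k F ∧ P.coeff 0 = 1 ∧
      P.leadingCoeff = (S.q : ℤ) ^ genusFF k F ∧
      P.eval 1 = (Nat.card (fixedPow S.sigmaEnd 1) : ℤ) ∧
      (1 - (X : ℤ⟦X⟧)) * (1 - C (S.q : ℤ) * X) * S.zeta = (P : ℤ⟦X⟧) :=
  zeta_rational' hRR S

/-- **Seat Z4.** `L(χ, t)` is a polynomial for a nontrivial character `χ` of `J₁` -/
theorem Lser_polynomial (hRR : IsRRField k F) (S : FrobStr k F) [IsAlgClosed k]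
    (χ : Pic0 k F → ℂ) (hχ : S.IsCharOn χ) (hne : ∃ x ∈ fixedPow S.sigmaEnd 1, χ x ≠ 1) :
    ∃ P : Polynomial ℂ, S.Lser χ = (P : ℂ⟦X⟧) :=
  lser_polynomial_of_finite hRR S (finite_fixed_one' hRR S) χ hχ hne

end Fermat.Agent.S27
end
end MergeWrap_S27_Zeta_Rational
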